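/-
GATE-Z (S15) / [MOD-beta] leaf (T3), abstract core (helper43).  Mathlib only.

Setting: a commutative group `G` (in the application `G = Kˣ`, `K` a complete ultrametric field),
an additive commutative group `E` (`E = E_q(K)`), a map `P : G → E` with

* `hmul : ∀ u v, P (u * v) = P u + P v`              (T2: the addition theorem),
* `hker : ∀ u, P u = 0 ↔ u ∈ Subgroup.zpowers q`     (`P u = O ⟺ u ∈ q^ℤ`, by definition of `P`),

`q` of infinite order, `p` prime, `ζ` of order `p`, `t₀ ^ p = q`.  Then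

* `P_eq_iff`            : `P u = P v ↔ u / v ∈ q^ℤ`  (injectivity on `G / q^ℤ`);
* `pt`                  : the `p²` points `P (ζ^i t₀^k)`, `i, k < p`, pairwise distinct, killed by `p`;
* `exists_eq_pt`        : if `E[p]` is finite with at most `p²` elements, EVERY `p`-torsion point
                          is one of them (counting; no surjectivity of `P` is needed);
* `torsion_dichotomy`   : a point `Q ≠ 0` of order `p` is either `P (ζ^j)` (`p ∤ j`: `⟨Q⟩ = P(μ_p)`)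
                          or has a multiple `m • Q = P t` with `t ^ p = q`, `p ∤ m` (`⟨Q⟩ = ⟨P t⟩`).
-/
import Mathlib

set_option autoImplicit false

namespace Fermat.Agent.GZ.Tate.T3.Core

variable {G : Type*} [CommGroup G] {E : Type*} [AddCommGroup E]

section Hom

variable (P : G → E) (hmul : ∀ u v, P (u * v) = P u + P v)
include hmul

theorem P_one : P 1 = 0 := by
  have h := hmul 1 1
  rw [mul_one] at h
  exact left_eq_add.mp h

theorem P_inv (u : G) : P u⁻¹ = -P u := by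
  have h := hmul u u⁻¹
  rw [mul_inv_cancel, P_one P hmul] at h
  exact (neg_eq_of_add_eq_zero_right h.symm).symm

theorem P_div (u v : G) : P (u / v) = P u - P v := by
  rw [div_eq_mul_inv, hmul, P_inv P hmul, sub_eq_add_neg]

theorem P_pow (u : G) (n : ℕ) : P (u ^ n) = n • P u := by
  induction n with
  | zero => rw [pow_zero, zero_smul, P_one P hmul]
  | succ n ih => rw [pow_succ, hmul, ih, succ_nsmul]

theorem P_zpow (u : G) (n : ℤ) : P (u ^ n) = n • P u := by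
  cases n with
  | ofNat n => simp [P_pow P hmul]
  | negSucc n =>
    rw [zpow_negSucc, P_inv P hmul, P_pow P hmul, negSucc_zsmul]

variable {q : G} (hker : ∀ u, P u = 0 ↔ u ∈ Subgroup.zpowers q)
include hker

/-- **Injectivity on `G / q^ℤ`.** -/
theorem P_eq_iff (u v : G) : P u = P v ↔ u / v ∈ Subgroup.zpowers q := by
  rw [← hker, P_div P hmul, sub_eq_zero]

omit hmul in
theorem P_q_pow (n : ℕ) : P (q ^ n) = 0 :=
  (hker _).mpr (Subgroup.pow_mem _ (Subgroup.mem_zpowers q) n)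

end Hom

section Torsion

variable (P : G → E) (hmul : ∀ u v, P (u * v) = P u + P v)
variable {q : G} (hker : ∀ u, P u = 0 ↔ u ∈ Subgroup.zpowers q)
variable (hq : ∀ n : ℤ, q ^ n = 1 → n = 0)
variable {p : ℕ} [hp : Fact p.Prime] {ζ t₀ : G} (hζ : orderOf ζ = p) (ht₀ : t₀ ^ p = q)

/-- the candidate `p`-torsion points `P (ζ^i t₀^k)`. -/
def pt (ζ t₀ : G) (ik : Fin p × Fin p) : E := P (ζ ^ (ik.1 : ℕ) * t₀ ^ (ik.2 : ℕ))

omit hp in
include hmul hker ht₀ in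
theorem nsmul_pt (hζ : orderOf ζ = p) (ik : Fin p × Fin p) : p • pt P ζ t₀ ik = 0 := by
  have hζp : ζ ^ p = 1 := by rw [← hζ]; exact pow_orderOf_eq_one ζ
  rw [pt, ← P_pow P hmul, mul_pow, ← pow_mul, ← pow_mul, mul_comm (ik.1 : ℕ), mul_comm (ik.2 : ℕ),
    pow_mul, pow_mul, hζp, one_pow, one_mul, ht₀]
  exact P_q_pow P hker _

include hq ht₀ in
/-- `t₀` has infinite order. -/
theorem t₀_zpow_eq_one {n : ℤ} (h : t₀ ^ n = 1) : n = 0 := by
  have hp0 : (p : ℤ) ≠ 0 := by exact_mod_cast hp.out.ne_zero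
  have h1 : q ^ n = 1 := by
    rw [← ht₀, ← zpow_natCast, ← zpow_mul, mul_comm, zpow_mul, h, one_zpow]
  exact hq n h1

include hq ht₀ in
/-- a power of `t₀` which is a root of unity is trivial. -/
theorem t₀_zpow_eq_zero_of_isOfFinOrder {n : ℤ} (h : IsOfFinOrder (t₀ ^ n)) : n = 0 := by
  obtain ⟨m, hm, hm1⟩ := h.exists_pow_eq_one
  have h2 : t₀ ^ (n * m) = 1 := by rw [zpow_mul, zpow_natCast]; exact hm1
  have h3 := t₀_zpow_eq_one hq ht₀ h2
  have hm0 : (m : ℤ) ≠ 0 := by exact_mod_cast hm.ne'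
  exact (mul_eq_zero.mp h3).resolve_right hm0

include hmul hker hq ht₀ in
/-- the `p²` candidate points are pairwise distinct. -/
theorem pt_injective (hζ : orderOf ζ = p) : Function.Injective (pt (p := p) P ζ t₀) := by
  rintro ⟨i, k⟩ ⟨i', k'⟩ h
  have hp0 : (p : ℤ) ≠ 0 := by exact_mod_cast hp.out.ne_zero
  have hζfin : IsOfFinOrder ζ := by
    rw [← orderOf_pos_iff, hζ]; exact hp.out.pos
  rw [pt, pt, P_eq_iff P hmul hker] at h
  obtain ⟨n, hn⟩ := Subgroup.mem_zpowers_iff.mp h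
  -- `t₀ ^ (k - k' - p n) = ζ ^ (i' - i)` is a root of unity
  have hrel : t₀ ^ ((k : ℤ) - k' - p * n) = ζ ^ ((i' : ℤ) - i) := by
    have hq' : q ^ n = t₀ ^ ((p : ℤ) * n) := by
      rw [← ht₀, ← zpow_natCast, ← zpow_mul]
    have h1 : ζ ^ ((i : ℕ) : ℤ) * t₀ ^ ((k : ℕ) : ℤ) =
        t₀ ^ ((p : ℤ) * n) * (ζ ^ ((i' : ℕ) : ℤ) * t₀ ^ ((k' : ℕ) : ℤ)) := by
      rw [← hq', hn, zpow_natCast, zpow_natCast, zpow_natCast, zpow_natCast, div_mul_cancel]
    rw [zpow_sub, zpow_sub, zpow_sub, mul_inv_eq_iff_eq_mul, mul_inv_eq_iff_eq_mul]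
    apply mul_left_cancel (a := ζ ^ ((i : ℕ) : ℤ))
    rw [h1]
    have hc : ζ ^ ((i : ℕ) : ℤ) * (ζ ^ ((i' : ℕ) : ℤ) * (ζ ^ ((i : ℕ) : ℤ))⁻¹ *
        t₀ ^ ((p : ℤ) * n) * t₀ ^ ((k' : ℕ) : ℤ)) =
        (ζ ^ ((i : ℕ) : ℤ) * (ζ ^ ((i : ℕ) : ℤ))⁻¹) *
          (t₀ ^ ((p : ℤ) * n) * (ζ ^ ((i' : ℕ) : ℤ) * t₀ ^ ((k' : ℕ) : ℤ))) := by ac_rfl
    rw [hc, mul_inv_cancel, one_mul]
  have hfin : IsOfFinOrder (t₀ ^ ((k : ℤ) - k' - p * n)) := by
    rw [hrel]; exact hζfin.zpow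
  have hzero := t₀_zpow_eq_zero_of_isOfFinOrder hq ht₀ hfin
  -- hence `k = k'` and `n = 0`
  have hk : (k : ℕ) = (k' : ℕ) := by
    have h1 : ((k : ℕ) : ℤ) - (k' : ℕ) = p * n := by linarith
    have hk1 := k.2
    have hk2 := k'.2
    by_contra hne
    have hdvd : (p : ℤ) ∣ ((k : ℕ) : ℤ) - (k' : ℕ) := ⟨n, h1⟩
    have habs : |((k : ℕ) : ℤ) - (k' : ℕ)| < p := by
      rw [abs_lt]; constructor <;> omega
    have := Int.eq_zero_of_abs_lt_dvd hdvd habs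
    omega
  -- and then `ζ ^ (i' - i) = 1`
  have hi : (i : ℕ) = (i' : ℕ) := by
    rw [hzero, zpow_zero] at hrel
    have hdvd : ((orderOf ζ : ℕ) : ℤ) ∣ (i' : ℤ) - i := orderOf_dvd_iff_zpow_eq_one.mpr hrel.symm
    rw [hζ] at hdvd
    have hi1 := i.2
    have hi2 := i'.2
    have habs : |((i' : ℕ) : ℤ) - (i : ℕ)| < p := by
      rw [abs_lt]; constructor <;> omega
    have := Int.eq_zero_of_abs_lt_dvd hdvd habs
    omega
  exact Prod.ext (Fin.ext hi) (Fin.ext hk)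

include hmul hker hq ht₀ in
/-- **Counting**: if `E[p]` has at most `p²` elements, every `p`-torsion point is `P (ζ^i t₀^k)`. -/
theorem exists_eq_pt (hζ : orderOf ζ = p) [Finite {x : E // p • x = 0}]
    (hcard : Nat.card {x : E // p • x = 0} ≤ p ^ 2) {x : E} (hx : p • x = 0) :
    ∃ ik : Fin p × Fin p, pt P ζ t₀ ik = x := by
  classical
  let f : Fin p × Fin p → {x : E // p • x = 0} :=
    fun ik => ⟨pt P ζ t₀ ik, nsmul_pt P hmul hker ht₀ hζ ik⟩
  have hf : Function.Injective f := fun a b h =>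
    pt_injective P hmul hker hq ht₀ hζ (congrArg Subtype.val h)
  have hcard' : Nat.card {x : E // p • x = 0} ≤ Nat.card (Fin p × Fin p) := by
    rw [Nat.card_prod, Nat.card_fin, ← sq]; exact hcard
  have hbij : Function.Bijective f :=
    (Nat.bijective_iff_injective_and_card f).mpr
      ⟨hf, le_antisymm (Nat.card_le_card_of_injective f hf) hcard'⟩
  obtain ⟨ik, hik⟩ := hbij.2 ⟨x, hx⟩
  exact ⟨ik, congrArg Subtype.val hik⟩

include hmul hker hq ht₀ in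
/-- **Dichotomy**: a nonzero `p`-torsion point `Q` is `P (ζ^j)` with `p ∤ j` (the subgroup
`P(μ_p)`), or some multiple `m • Q`, `p ∤ m`, is `P t` with `t ^ p = q`. -/
theorem torsion_dichotomy (hζ : orderOf ζ = p) [Finite {x : E // p • x = 0}]
    (hcard : Nat.card {x : E // p • x = 0} ≤ p ^ 2) {Q : E} (hQ0 : Q ≠ 0) (hQ : p • Q = 0) :
    (∃ j : ℕ, ¬ p ∣ j ∧ Q = P (ζ ^ j)) ∨
      ∃ t : G, t ^ p = q ∧ ∃ m : ℕ, ¬ p ∣ m ∧ m • Q = P t := by
  have hζp : ζ ^ p = 1 := by rw [← hζ]; exact pow_orderOf_eq_one ζ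
  obtain ⟨⟨i, k⟩, hik⟩ := exists_eq_pt P hmul hker hq ht₀ hζ hcard hQ
  rw [pt] at hik
  simp only at hik
  by_cases hk : (k : ℕ) = 0
  · left
    refine ⟨i, fun hdvd => hQ0 ?_, ?_⟩
    · obtain ⟨c, hc⟩ := hdvd
      rw [← hik, hk, pow_zero, mul_one, hc, pow_mul, hζp, one_pow, P_one P hmul]
    · rw [← hik, hk, pow_zero, mul_one]
  · right
    -- `m := k⁻¹ mod p`
    have hcop : Nat.Coprime (k : ℕ) p := by
      rw [Nat.coprime_comm, Nat.Prime.coprime_iff_not_dvd hp.out]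
      intro hdvd
      exact hk (Nat.eq_zero_of_dvd_of_lt hdvd k.2)
    obtain ⟨m, -, hm⟩ := Nat.exists_mul_mod_eq_one_of_coprime hcop hp.out.one_lt
    -- `k * m = 1 + p * c`
    obtain ⟨c, hc⟩ : ∃ c, (k : ℕ) * m = 1 + p * c :=
      ⟨(k : ℕ) * m / p, by have := Nat.div_add_mod ((k : ℕ) * m) p; omega⟩
    refine ⟨ζ ^ ((i : ℕ) * m) * t₀, ?_, m, ?_, ?_⟩
    · rw [mul_pow, ← pow_mul, mul_comm ((i : ℕ) * m), pow_mul, hζp, one_pow, one_mul, ht₀]
    · intro hdvd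
      obtain ⟨d, hd⟩ := hdvd
      rw [hd, ← mul_assoc, mul_comm (k : ℕ) p, mul_assoc, Nat.mul_mod_right] at hm
      exact zero_ne_one hm
    · rw [← hik, ← P_pow P hmul, mul_pow, ← pow_mul, ← pow_mul, hc, pow_add, pow_one, pow_mul t₀,
        ht₀, ← mul_assoc, hmul, P_q_pow P hker, add_zero]

end Torsion


section Sums

variable {M : Type*} [AddCommMonoid M]

/-- `n • Q` depends only on `n mod p` when `p • Q = 0`. -/
theorem nsmul_eq_mod_nsmul {p : ℕ} {Q : E} (hQ : p • Q = 0) (n : ℕ) : n • Q = (n % p) • Q := by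
  conv_lhs => rw [← Nat.mod_add_div n p]
  rw [add_nsmul, mul_comm p (n / p), mul_nsmul', hQ, nsmul_zero, add_zero]

/-- multiplication by `m` (`p ∤ m`) permutes `{1, …, p-1}` modulo `p`. -/
theorem image_mul_mod_Ico {p : ℕ} [hp : Fact p.Prime] {m : ℕ} (hm : ¬ p ∣ m) :
    (Finset.Ico 1 p).image (fun k => k * m % p) = Finset.Ico 1 p ∧
      Set.InjOn (fun k => k * m % p) (Finset.Ico 1 p : Set ℕ) := by
  have hinj : Set.InjOn (fun k => k * m % p) (Finset.Ico 1 p : Set ℕ) := by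
    intro k hk k' hk' h
    simp only [Finset.coe_Ico, Set.mem_Ico] at hk hk'
    have h1 : k * m ≡ k' * m [MOD p] := h
    have hcop : Nat.Coprime p m := (Nat.Prime.coprime_iff_not_dvd hp.out).mpr hm
    have h2 : k ≡ k' [MOD p] := Nat.ModEq.cancel_right_of_coprime hcop h1
    have h3 := Nat.ModEq.eq_of_lt_of_lt h2 hk.2 hk'.2
    exact h3
  refine ⟨?_, hinj⟩
  apply Finset.eq_of_subset_of_card_le
  · intro j hj
    obtain ⟨k, hk, rfl⟩ := Finset.mem_image.mp hj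
    rw [Finset.mem_Ico] at hk ⊢
    refine ⟨?_, Nat.mod_lt _ hp.out.pos⟩
    rw [Nat.one_le_iff_ne_zero]
    intro h0
    have hdvd : p ∣ k * m := Nat.dvd_of_mod_eq_zero h0
    rcases (Nat.Prime.dvd_mul hp.out).mp hdvd with h | h
    · exact absurd (Nat.le_of_dvd (by omega) h) (by omega)
    · exact hm h
  · rw [Finset.card_image_of_injOn hinj]

/-- **the sum over the nonzero elements of `⟨Q⟩` does not depend on the generator.** -/
theorem sum_Ico_nsmul_nsmul (f : E → M) {p : ℕ} [hp : Fact p.Prime] {Q : E} (hQ : p • Q = 0)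
    {m : ℕ} (hm : ¬ p ∣ m) :
    ∑ k ∈ Finset.Ico 1 p, f (k • (m • Q)) = ∑ k ∈ Finset.Ico 1 p, f (k • Q) := by
  obtain ⟨himg, hinj⟩ := image_mul_mod_Ico (p := p) hm
  have h1 : ∀ k, f (k • (m • Q)) = (fun j => f (j • Q)) (k * m % p) := by
    intro k
    show f (k • (m • Q)) = f ((k * m % p) • Q)
    rw [← mul_nsmul', nsmul_eq_mod_nsmul hQ (k * m)]
  calc ∑ k ∈ Finset.Ico 1 p, f (k • (m • Q))
      = ∑ k ∈ Finset.Ico 1 p, (fun j => f (j • Q)) (k * m % p) := Finset.sum_congr rfl fun k _ => h1 k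
    _ = ∑ j ∈ (Finset.Ico 1 p).image (fun k => k * m % p), f (j • Q) :=
        (Finset.sum_image (f := fun j => f (j • Q)) hinj).symm
    _ = ∑ k ∈ Finset.Ico 1 p, f (k • Q) := by rw [himg]

/-- for an even function of the index, the full sum is twice the half sum (Vélu's half system). -/
theorem sum_Ico_eq_two_nsmul_half {p : ℕ} (hodd : Odd p) (g : ℕ → M)
    (hg : ∀ k, 1 ≤ k → k < p → g (p - k) = g k) :
    ∑ k ∈ Finset.Ico 1 p, g k = 2 • ∑ k ∈ Finset.Ico 1 ((p + 1) / 2), g k := by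
  obtain ⟨r, rfl⟩ := hodd
  have h1 : (2 * r + 1 + 1) / 2 = r + 1 := by omega
  rw [h1, two_nsmul]
  have hsplit : Finset.Ico 1 (2 * r + 1) = Finset.Ico 1 (r + 1) ∪ Finset.Ico (r + 1) (2 * r + 1) := by
    rw [Finset.Ico_union_Ico_eq_Ico (by omega) (by omega)]
  have hdisj : Disjoint (Finset.Ico 1 (r + 1)) (Finset.Ico (r + 1) (2 * r + 1)) :=
    Finset.Ico_disjoint_Ico_consecutive _ _ _
  rw [hsplit, Finset.sum_union hdisj]
  congr 1
  -- reflect `k ↦ 2 r + 1 - k`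
  refine Finset.sum_nbij' (fun k => 2 * r + 1 - k) (fun k => 2 * r + 1 - k) ?_ ?_ ?_ ?_ ?_
  · intro k hk
    rw [Finset.mem_Ico] at hk ⊢
    omega
  · intro k hk
    rw [Finset.mem_Ico] at hk ⊢
    omega
  · intro k hk
    rw [Finset.mem_Ico] at hk
    omega
  · intro k hk
    rw [Finset.mem_Ico] at hk
    omega
  · intro k hk
    rw [Finset.mem_Ico] at hk
    have := hg (2 * r + 1 - k) (by omega) (by omega)
    rw [← this]
    congr 1
    omega

end Sums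


section SumDichotomy

variable {M : Type*} [AddCommMonoid M]
variable (P : G → E) (hmul : ∀ u v, P (u * v) = P u + P v)
variable {q : G} (hker : ∀ u, P u = 0 ↔ u ∈ Subgroup.zpowers q)
variable (hq : ∀ n : ℤ, q ^ n = 1 → n = 0)
variable {p : ℕ} [hp : Fact p.Prime] {ζ t₀ : G} (ht₀ : t₀ ^ p = q)

include hmul hker hq ht₀ in
/-- **Dichotomy, full form**: a nonzero `p`-torsion point `Q` is `P (ζ^j)` with `p ∤ j`, or
`Q = P (ζ^i t₀^k)` with `0 < k < p` (so `|q| < |ζ^i t₀^k| < 1`) and `m • Q = P t` for some `t`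
with `t ^ p = q` and some `m` prime to `p`. -/
theorem torsion_dichotomy_full (hζ : orderOf ζ = p) [Finite {x : E // p • x = 0}]
    (hcard : Nat.card {x : E // p • x = 0} ≤ p ^ 2) {Q : E} (hQ0 : Q ≠ 0) (hQ : p • Q = 0) :
    (∃ j : ℕ, ¬ p ∣ j ∧ Q = P (ζ ^ j)) ∨
      ∃ i k : ℕ, 0 < k ∧ k < p ∧ Q = P (ζ ^ i * t₀ ^ k) ∧
        ∃ t : G, t ^ p = q ∧ ∃ m : ℕ, ¬ p ∣ m ∧ m • Q = P t := by
  have hζp : ζ ^ p = 1 := by rw [← hζ]; exact pow_orderOf_eq_one ζ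
  obtain ⟨⟨i, k⟩, hik⟩ := exists_eq_pt P hmul hker hq ht₀ hζ hcard hQ
  rw [pt] at hik
  simp only at hik
  by_cases hk : (k : ℕ) = 0
  · left
    refine ⟨i, fun hdvd => hQ0 ?_, ?_⟩
    · obtain ⟨c, hc⟩ := hdvd
      rw [← hik, hk, pow_zero, mul_one, hc, pow_mul, hζp, one_pow, P_one P hmul]
    · rw [← hik, hk, pow_zero, mul_one]
  · right
    refine ⟨i, k, Nat.pos_of_ne_zero hk, k.2, hik.symm, ?_⟩
    have hcop : Nat.Coprime (k : ℕ) p := by
      rw [Nat.coprime_comm, Nat.Prime.coprime_iff_not_dvd hp.out]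
      intro hdvd
      exact hk (Nat.eq_zero_of_dvd_of_lt hdvd k.2)
    obtain ⟨m, -, hm⟩ := Nat.exists_mul_mod_eq_one_of_coprime hcop hp.out.one_lt
    obtain ⟨c, hc⟩ : ∃ c, (k : ℕ) * m = 1 + p * c :=
      ⟨(k : ℕ) * m / p, by have := Nat.div_add_mod ((k : ℕ) * m) p; omega⟩
    refine ⟨ζ ^ ((i : ℕ) * m) * t₀, ?_, m, ?_, ?_⟩
    · rw [mul_pow, ← pow_mul, mul_comm ((i : ℕ) * m), pow_mul, hζp, one_pow, one_mul, ht₀]
    · intro hdvd
      obtain ⟨d, hd⟩ := hdvd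
      rw [hd, ← mul_assoc, mul_comm (k : ℕ) p, mul_assoc, Nat.mul_mod_right] at hm
      exact zero_ne_one hm
    · rw [← hik, ← P_pow P hmul, mul_pow, ← pow_mul, ← pow_mul, hc, pow_add, pow_one, pow_mul t₀,
        ht₀, ← mul_assoc, hmul, P_q_pow P hker, add_zero]

include hmul hker hq ht₀ in
/-- **Dichotomy for sums over `⟨Q⟩ ∖ 0`** (the shape consumed by the Vélu sums): for EVERY
function `f` on `E`, `∑_{k=1}^{p-1} f (k • Q)` is `∑_{k=1}^{p-1} f (P (ζ^k))` (case `⟨Q⟩ = P(μ_p)`)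
or `∑_{k=1}^{p-1} f (P (t^k))` for some `t` with `t ^ p = q` (case `⟨Q⟩ = ⟨P t⟩`). -/
theorem sum_dichotomy (hζ : orderOf ζ = p) [Finite {x : E // p • x = 0}]
    (hcard : Nat.card {x : E // p • x = 0} ≤ p ^ 2) {Q : E} (hQ0 : Q ≠ 0) (hQ : p • Q = 0) :
    ((∃ j : ℕ, ¬ p ∣ j ∧ Q = P (ζ ^ j)) ∧ ∀ f : E → M,
        ∑ k ∈ Finset.Ico 1 p, f (k • Q) = ∑ k ∈ Finset.Ico 1 p, f (P (ζ ^ k))) ∨
      ∃ i k : ℕ, 0 < k ∧ k < p ∧ Q = P (ζ ^ i * t₀ ^ k) ∧
        ∃ t : G, t ^ p = q ∧ (∃ m : ℕ, ¬ p ∣ m ∧ m • Q = P t) ∧ ∀ f : E → M,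
          ∑ k ∈ Finset.Ico 1 p, f (k • Q) = ∑ k ∈ Finset.Ico 1 p, f (P (t ^ k)) := by
  have hζp : ζ ^ p = 1 := by rw [← hζ]; exact pow_orderOf_eq_one ζ
  rcases torsion_dichotomy_full P hmul hker hq ht₀ hζ hcard hQ0 hQ with
    ⟨j, hj, hQj⟩ | ⟨i, k, hk0, hkp, hQik, t, ht, m, hm, hmQ⟩
  · left
    refine ⟨⟨j, hj, hQj⟩, fun f => ?_⟩
    have hζ0 : p • P ζ = 0 := by rw [← P_pow P hmul, hζp, P_one P hmul]
    have hQj' : Q = j • P ζ := by rw [hQj, P_pow P hmul]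
    rw [hQj', sum_Ico_nsmul_nsmul f hζ0 hj]
    exact Finset.sum_congr rfl fun k _ => by rw [P_pow P hmul]
  · right
    refine ⟨i, k, hk0, hkp, hQik, t, ht, ⟨m, hm, hmQ⟩, fun f => ?_⟩
    rw [← sum_Ico_nsmul_nsmul f hQ hm, hmQ]
    exact Finset.sum_congr rfl fun k _ => by rw [P_pow P hmul]

end SumDichotomy

end Fermat.Agent.GZ.Tate.T3.Core
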