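/-
GATE-Z (S15) / [MOD-beta] leaf (T3), counting input (helper43).

For ANY field `K` of characteristic zero and any elliptic curve `W / K`, the `n`-torsion of `W(K)`
is finite with at most `n²` elements (base change to the algebraic closure + `GE/Tors/Count`).
This is the hypothesis `hcard` of `T3/Core.exists_eq_pt` / `torsion_dichotomy`.
-/
import Fermat.Agent.GE.Tors.Count

set_option autoImplicit false

namespace Fermat.Agent.GZ.Tate.T3.Count

open WeierstrassCurve

universe u

variable {K : Type u} [Field K] [CharZero K] [DecidableEq K] (W : WeierstrassCurve K)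

omit [CharZero K] [DecidableEq K] in
/-- `W⁄K = W` for a curve over `K`. -/
theorem baseChange_self' : (W⁄K) = W := by
  show WeierstrassCurve.map W (algebraMap K K) = W
  rw [Algebra.algebraMap_self]
  exact WeierstrassCurve.map_id W

/-- the `n`-torsion of `W(K)`, for the base-changed model `W⁄K`. -/
theorem card_torsion_baseChange_le (hΔ : W.Δ ≠ 0) (n : ℕ) (hn : 1 ≤ n) :
    Nat.card {P : (W⁄K).toAffine.Point // n • P = 0} ≤ n ^ 2 := by
  classical
  let L := AlgebraicClosure K
  have hΔL : (W⁄L).Δ ≠ 0 := by
    show (W.map (algebraMap K L)).Δ ≠ 0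
    rw [WeierstrassCurve.map_Δ]
    exact (map_ne_zero_iff _ (algebraMap K L).injective).mpr hΔ
  have hfin : Finite {P : (W⁄L).toAffine.Point // n • P = 0} :=
    Fermat.Agent.GE.Tors.finite_torsion hΔL n hn
  let φ : (W⁄K).toAffine.Point →+ (W⁄L).toAffine.Point :=
    Affine.Point.baseChange (W' := W) K L
  have hφ : Function.Injective φ := Affine.Point.map_injective _
  let g : {P : (W⁄K).toAffine.Point // n • P = 0} → {P : (W⁄L).toAffine.Point // n • P = 0} :=
    fun P => ⟨φ P.1, by rw [← map_nsmul, P.2, map_zero]⟩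
  have hg : Function.Injective g := fun P Q h =>
    Subtype.ext (hφ (congrArg Subtype.val h))
  calc Nat.card {P : (W⁄K).toAffine.Point // n • P = 0}
      ≤ Nat.card {P : (W⁄L).toAffine.Point // n • P = 0} := Nat.card_le_card_of_injective g hg
    _ = n ^ 2 := Fermat.Agent.GE.Tors.card_torsion hΔL n hn

/-- **Counting**: over any field of characteristic zero, `#E[n](K) ≤ n²`. -/
theorem card_torsion_le (hΔ : W.Δ ≠ 0) (n : ℕ) (hn : 1 ≤ n) :
    Nat.card {P : W.toAffine.Point // n • P = 0} ≤ n ^ 2 := by
  have h := card_torsion_baseChange_le W hΔ n hn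
  rwa [baseChange_self'] at h

/-- the `n`-torsion of `W(K)` is finite (restated from `GE/Tors/Count`). -/
theorem finite_torsion' (hΔ : W.Δ ≠ 0) (n : ℕ) (hn : 1 ≤ n) :
    Finite {P : W.toAffine.Point // n • P = 0} :=
  Fermat.Agent.GE.Tors.finite_torsion hΔ n hn

end Fermat.Agent.GZ.Tate.T3.Count
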