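/-
GATE-Z (S15) / [MOD-beta] leaf (T3), plug (helper43): `T3/Core` + `T3/Count` on a Weierstrass
curve `W` over a field `K` of characteristic zero, with a parametrisation `P : Kˣ → W(K)` in
HYPOTHESIS FORM:

* `hmul : ∀ u v, P (u * v) = P u + P v`               (T2, the addition theorem);
* `hker : ∀ u, P u = 0 ↔ u ∈ Subgroup.zpowers q`      (T1: `P u = O ⟺ u ∈ q^ℤ`).

Outputs (no surjectivity of `P` is used; the count `#W[p](K) ≤ p²` is `T3/Count`):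

* `P_eq_iff`           : `P u = P v ↔ u / v ∈ q^ℤ`;
* `torsion_eq_pt`      : every `p`-torsion point of `W(K)` is `P (ζ^i t₀^k)`, `i, k < p`;
* `torsion_dichotomy`  : `Q = P (ζ^j)` (`p ∤ j`) or `Q = P (ζ^i t₀^k)`, `0 < k < p`, and
                         `m • Q = P t`, `t^p = q`, `p ∤ m`;
* `sum_dichotomy`      : the same with `∑_{k=1}^{p-1} f (k • Q)` rewritten as a sum over `P (ζ^k)`
                         resp. `P (t^k)` (input of the Vélu sums T5/T6);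
* normed-field bridges : `zpow_eq_one_of_norm_lt_one` (the hypothesis `hq`), `orderOf_of_isPrimitiveRoot`
                         (the hypothesis `hζ`), `norm_root_pow` (`|q| < |ζ^i t₀^k| < 1` for `0 < k < p`,
                         `|ζ^j| = 1`: input of the reduction leaf T4).
-/
import Fermat.Agent.GZ.Tate.T3.Core
import Fermat.Agent.GZ.Tate.T3.Count

set_option autoImplicit false

namespace Fermat.Agent.GZ.Tate.T3.Plug

open WeierstrassCurve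

section Bridges

variable {K : Type*} [NormedField K]

/-- `0 < |q| < 1` ⟹ `q` has infinite order in `Kˣ` (the hypothesis `hq` of `T3/Core`). -/
theorem zpow_eq_one_of_norm_lt_one {q : Kˣ} (hq1 : ‖(q : K)‖ < 1) (n : ℤ) (h : q ^ n = 1) :
    n = 0 := by
  have hq0 : 0 < ‖(q : K)‖ := norm_pos_iff.mpr q.ne_zero
  have h1 : ‖(q : K)‖ ^ n = 1 := by
    have := congrArg (fun u : Kˣ => ‖(u : K)‖) h
    simpa [Units.val_zpow_eq_zpow_val, norm_zpow] using this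
  by_contra hn
  rcases lt_or_gt_of_ne hn with hneg | hpos
  · have : 1 < ‖(q : K)‖ ^ n := one_lt_zpow_of_neg₀ hq0 hq1 hneg
    rw [h1] at this
    exact lt_irrefl _ this
  · have : ‖(q : K)‖ ^ n < 1 := zpow_lt_one₀ hq0 hq1 hpos
    rw [h1] at this
    exact lt_irrefl _ this

/-- a primitive `p`-th root of unity of `K`, as a unit, has order `p` (the hypothesis `hζ`). -/
theorem orderOf_of_isPrimitiveRoot {p : ℕ} {ζ : Kˣ} (h : IsPrimitiveRoot (ζ : K) p) :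
    orderOf ζ = p :=
  ((IsPrimitiveRoot.coe_units_iff).mp h).eq_orderOf.symm

/-- a root of unity has norm one. -/
theorem norm_eq_one_of_pow_eq_one {ζ : K} {p : ℕ} (hp : p ≠ 0) (h : ζ ^ p = 1) : ‖ζ‖ = 1 := by
  have h1 : ‖ζ‖ ^ p = 1 := by rw [← norm_pow, h, norm_one]
  exact (pow_eq_one_iff_of_nonneg (norm_nonneg ζ) hp).mp h1

/-- `|ζ^i t₀^k| = |t₀|^k`, and for `0 < k < p`, `t₀^p = q`, `|q| < 1`: `|q| < |ζ^i t₀^k| < 1`. -/
theorem norm_root_pow {p : ℕ} (hp : p ≠ 0) {q ζ t₀ : K} (hq0 : q ≠ 0) (hq1 : ‖q‖ < 1)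
    (hζ : ζ ^ p = 1) (ht₀ : t₀ ^ p = q) (i : ℕ) {k : ℕ} (hk0 : 0 < k) (hkp : k < p) :
    ‖q‖ < ‖ζ ^ i * t₀ ^ k‖ ∧ ‖ζ ^ i * t₀ ^ k‖ < 1 := by
  have hζ1 : ‖ζ‖ = 1 := norm_eq_one_of_pow_eq_one hp hζ
  have hnorm : ‖ζ ^ i * t₀ ^ k‖ = ‖t₀‖ ^ k := by
    rw [norm_mul, norm_pow, norm_pow, hζ1, one_pow, one_mul]
  have htq : ‖t₀‖ ^ p = ‖q‖ := by rw [← norm_pow, ht₀]
  have ht0 : 0 < ‖t₀‖ := by
    rw [norm_pos_iff]
    rintro rfl
    rw [zero_pow hp] at ht₀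
    exact hq0 ht₀.symm
  have ht1 : ‖t₀‖ < 1 := by
    by_contra hge
    rw [not_lt] at hge
    have : 1 ≤ ‖t₀‖ ^ p := one_le_pow₀ hge
    rw [htq] at this
    exact absurd hq1 (not_lt.mpr this)
  rw [hnorm]
  refine ⟨?_, pow_lt_one₀ ht0.le ht1 hk0.ne'⟩
  rw [← htq]
  exact pow_lt_pow_right_of_lt_one₀ ht0 ht1 hkp

end Bridges

section Curve

universe u

variable {K : Type u} [Field K] [CharZero K] [DecidableEq K] {W : WeierstrassCurve K}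
variable (hΔ : W.Δ ≠ 0)
variable (P : Kˣ → W.toAffine.Point) (hmul : ∀ u v, P (u * v) = P u + P v)
variable {q : Kˣ} (hker : ∀ u, P u = 0 ↔ u ∈ Subgroup.zpowers q)
variable (hq : ∀ n : ℤ, q ^ n = 1 → n = 0)
variable {p : ℕ} [hp : Fact p.Prime] {ζ t₀ : Kˣ} (hζ : orderOf ζ = p) (ht₀ : t₀ ^ p = q)

include hmul hker in
omit [CharZero K] in
/-- **(T3a)**: `P` is injective on `Kˣ / q^ℤ`. -/
theorem P_eq_iff (u v : Kˣ) : P u = P v ↔ u / v ∈ Subgroup.zpowers q :=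
  Core.P_eq_iff P hmul hker u v

include hΔ hmul hker hq hζ ht₀ in
/-- **(T3b)**: `W[p](K) = {P (ζ^i t₀^k) : i, k < p}` (by counting `p²`). -/
theorem torsion_eq_pt {Q : W.toAffine.Point} (hQ : p • Q = 0) :
    ∃ i k : ℕ, i < p ∧ k < p ∧ Q = P (ζ ^ i * t₀ ^ k) := by
  have := Count.finite_torsion' W hΔ p hp.out.one_le
  obtain ⟨⟨i, k⟩, hik⟩ := Core.exists_eq_pt P hmul hker hq ht₀ hζ
    (Count.card_torsion_le W hΔ p hp.out.one_le) hQ
  exact ⟨i, k, i.2, k.2, hik.symm⟩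

include hΔ hmul hker hq hζ ht₀ in
/-- **(T3c)**: a point `Q` of exact order `p` generates `P(μ_p)` or `⟨P t⟩`, `t ^ p = q`. -/
theorem torsion_dichotomy {Q : W.toAffine.Point} (hQ0 : Q ≠ 0) (hQ : p • Q = 0) :
    (∃ j : ℕ, ¬ p ∣ j ∧ Q = P (ζ ^ j)) ∨
      ∃ i k : ℕ, 0 < k ∧ k < p ∧ Q = P (ζ ^ i * t₀ ^ k) ∧
        ∃ t : Kˣ, t ^ p = q ∧ ∃ m : ℕ, ¬ p ∣ m ∧ m • Q = P t := by
  have := Count.finite_torsion' W hΔ p hp.out.one_le
  exact Core.torsion_dichotomy_full P hmul hker hq ht₀ hζ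
    (Count.card_torsion_le W hΔ p hp.out.one_le) hQ0 hQ

include hΔ hmul hker hq hζ ht₀ in
/-- **(T3d)**: the sums over `⟨Q⟩ ∖ 0` (Vélu) are sums over `P (ζ^k)` resp. `P (t^k)`. -/
theorem sum_dichotomy {M : Type*} [AddCommMonoid M] {Q : W.toAffine.Point} (hQ0 : Q ≠ 0)
    (hQ : p • Q = 0) :
    ((∃ j : ℕ, ¬ p ∣ j ∧ Q = P (ζ ^ j)) ∧ ∀ f : W.toAffine.Point → M,
        ∑ k ∈ Finset.Ico 1 p, f (k • Q) = ∑ k ∈ Finset.Ico 1 p, f (P (ζ ^ k))) ∨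
      ∃ i k : ℕ, 0 < k ∧ k < p ∧ Q = P (ζ ^ i * t₀ ^ k) ∧
        ∃ t : Kˣ, t ^ p = q ∧ (∃ m : ℕ, ¬ p ∣ m ∧ m • Q = P t) ∧
          ∀ f : W.toAffine.Point → M,
            ∑ k ∈ Finset.Ico 1 p, f (k • Q) = ∑ k ∈ Finset.Ico 1 p, f (P (t ^ k)) := by
  have := Count.finite_torsion' W hΔ p hp.out.one_le
  exact Core.sum_dichotomy P hmul hker hq ht₀ hζ
    (Count.card_torsion_le W hΔ p hp.out.one_le) hQ0 hQ

end Curve

end Fermat.Agent.GZ.Tate.T3.Plug
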