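/-
GATE-Z (S15) / [MOD-beta] (T3) on the Tate curve itself (helper43): `T3/Plug` instantiated at
`T2/Hom.tateP`, in the vocabulary of `GZ/Tate/Defs.lean`.

Binders: `hns` (T1: nonsingular points), `hgen` (T2-D: generic chords), `hΔ : (tateCurve q).Δ ≠ 0`
(T0), `[CharZero K]`, `ζ` a primitive `p`-th root of unity of `K`, `t₀ ^ p = q`.

* `torsion_eq_pt`     : `E_q[p](K) = {tateP (ζ^i t₀^k) : i, k < p}`;
* `torsion_dichotomy` : `Q = tateP (ζ^j)`, `p ∤ j`  (and `‖ζ^j‖ = 1`), or `Q = tateP (ζ^i t₀^k)`, `0 < k < p`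
                        (and `‖q‖ < ‖ζ^i t₀^k‖ < 1`), `m • Q = tateP t`, `t^p = q`, `p ∤ m`;
* `sum_dichotomy_x`   : for EVERY `g : K → M`, `∑_{k=1}^{p-1} g (x(k • Q))` is `∑_{k=1}^{p-1} g (X q (ζ^k))`
                        or `∑_{k=1}^{p-1} g (X q (t^k))` with `t ^ p = q`  (the Vélu sums of T5/T6).
-/
import Fermat.Agent.GZ.Tate.T2.Hom
import Fermat.Agent.GZ.Tate.T3.Plug

set_option autoImplicit false

noncomputable section

namespace Fermat.Agent.GZ.Tate.T3.TatePlug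

open WeierstrassCurve Fermat.Agent.GZ.Tate Fermat.Agent.GZ.Tate.T2 Fermat.Agent.GZ.Tate.T2.Hom

universe u

variable {K : Type u} [NormedField K]

/-! ### admissibility from norms -/

theorem isAdm_of_norm_one {q u : K} (hq0 : q ≠ 0) (hq1 : ‖q‖ < 1) (hu : ‖u‖ = 1) (hu1 : u ≠ 1) :
    IsAdm q u := by
  have hqpos : 0 < ‖q‖ := norm_pos_iff.2 hq0
  refine ⟨fun h => by rw [h, norm_zero] at hu; exact zero_ne_one hu, fun m hm => ?_⟩
  have hnorm : ‖q ^ m * u‖ = ‖q‖ ^ m := by rw [norm_mul, norm_zpow, hu, mul_one]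
  rw [hm, norm_one] at hnorm
  have hm0 : m = 0 := by
    by_contra hne
    rcases lt_or_gt_of_ne hne with hneg | hpos
    · have : 1 < ‖q‖ ^ m := one_lt_zpow_of_neg₀ hqpos hq1 hneg
      rw [← hnorm] at this
      exact lt_irrefl _ this
    · have : ‖q‖ ^ m < 1 := zpow_lt_one₀ hqpos hq1 hpos
      rw [← hnorm] at this
      exact lt_irrefl _ this
  rw [hm0, zpow_zero, one_mul] at hm
  exact hu1 hm

theorem isAdm_of_norm_lt {q u : K} (hq0 : q ≠ 0) (hu0 : ‖q‖ < ‖u‖) (hu1 : ‖u‖ < 1) :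
    IsAdm q u := by
  have hqpos : 0 < ‖q‖ := norm_pos_iff.2 hq0
  have hq1 : ‖q‖ < 1 := hu0.trans hu1
  have hupos : 0 < ‖u‖ := hqpos.trans hu0
  refine ⟨norm_pos_iff.1 hupos, fun m hm => ?_⟩
  have hnorm : ‖q‖ ^ m * ‖u‖ = 1 := by rw [← norm_zpow, ← norm_mul, hm, norm_one]
  rcases le_or_gt 0 m with hm0 | hm0
  · have h1 : ‖q‖ ^ m ≤ 1 := zpow_le_one₀ hqpos hq1.le hm0
    have : ‖q‖ ^ m * ‖u‖ < 1 := by
      calc ‖q‖ ^ m * ‖u‖ ≤ 1 * ‖u‖ := mul_le_mul_of_nonneg_right h1 hupos.le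
        _ = ‖u‖ := one_mul _
        _ < 1 := hu1
    rw [hnorm] at this
    exact lt_irrefl _ this
  · have h1 : ‖q‖⁻¹ ≤ ‖q‖ ^ m := by
      have hm1 : m ≤ -1 := by omega
      have := zpow_le_zpow_right_of_le_one₀ hqpos hq1.le hm1
      rwa [zpow_neg_one] at this
    have : 1 < ‖q‖ ^ m * ‖u‖ := by
      calc 1 = ‖q‖⁻¹ * ‖q‖ := (inv_mul_cancel₀ hqpos.ne').symm
        _ < ‖q‖⁻¹ * ‖u‖ := mul_lt_mul_of_pos_left hu0 (inv_pos.2 hqpos)
        _ ≤ ‖q‖ ^ m * ‖u‖ := mul_le_mul_of_nonneg_right h1 hupos.le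
    rw [hnorm] at this
    exact lt_irrefl _ this

/-! ### the `x`-coordinate -/

/-- the `x`-coordinate of an affine point (`0` at the origin). -/
def xCoord {W : WeierstrassCurve K} : W.toAffine.Point → K
  | .zero => 0
  | .some x _ _ => x

@[simp] theorem xCoord_some {W : WeierstrassCurve K} {x y : K} (h : W.toAffine.Nonsingular x y) :
    xCoord (Affine.Point.some x y h) = x := rfl

variable [IsUltrametricDist K] [CompleteSpace K] [CharZero K] [DecidableEq K]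
variable (q : K)
variable (hns : ∀ u : K, IsAdm q u → (tateCurve q).toAffine.Nonsingular (X q u) (Y q u))
variable (hgen : ∀ u v : K, IsAdm q u → IsAdm q v → IsAdm q (u * v) → X q u ≠ X q v →
  ColRel (X q u) (Y q u) (X q v) (Y q v) (X q (u * v)) (Y q (u * v)) ∧
    SumRel (X q u) (Y q u) (X q v) (Y q v) (X q (u * v)))
variable (hq0 : q ≠ 0) (hq1 : ‖q‖ < 1) (hΔ : (tateCurve q).Δ ≠ 0)
variable {p : ℕ} [hp : Fact p.Prime] {ζ t₀ : Kˣ} (hζ : IsPrimitiveRoot (ζ : K) p)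
  (ht₀ : t₀ ^ p = Units.mk0 q hq0)

omit [IsUltrametricDist K] [CompleteSpace K] [CharZero K] [DecidableEq K] in
theorem xCoord_tateP {u : Kˣ} (h : IsAdm q (u : K)) : xCoord (tateP q hns u) = X q u := by
  rw [tateP_of_isAdm q hns h, xCoord_some]

include hgen hq1 hΔ hζ ht₀ in
/-- **(T3b)** on the Tate curve. -/
theorem torsion_eq_pt {Q : (tateCurve q).toAffine.Point} (hQ : p • Q = 0) :
    ∃ i k : ℕ, i < p ∧ k < p ∧ Q = tateP q hns (ζ ^ i * t₀ ^ k) :=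
  Plug.torsion_eq_pt hΔ (tateP q hns) (tateP_mul q hns hgen hq0 hq1) (tateP_eq_zero_iff q hns hq0)
    (Plug.zpow_eq_one_of_norm_lt_one (q := Units.mk0 q hq0) (by rw [Units.val_mk0]; exact hq1))
    (Plug.orderOf_of_isPrimitiveRoot hζ) ht₀ hQ

include hgen hq1 hΔ hζ ht₀ in
/-- **(T3c)** on the Tate curve, with the norms of the parameters. -/
theorem torsion_dichotomy {Q : (tateCurve q).toAffine.Point} (hQ0 : Q ≠ 0) (hQ : p • Q = 0) :
    (∃ j : ℕ, ¬ p ∣ j ∧ Q = tateP q hns (ζ ^ j) ∧ ‖((ζ ^ j : Kˣ) : K)‖ = 1) ∨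
      ∃ i k : ℕ, 0 < k ∧ k < p ∧ Q = tateP q hns (ζ ^ i * t₀ ^ k) ∧
        ‖q‖ < ‖((ζ ^ i * t₀ ^ k : Kˣ) : K)‖ ∧ ‖((ζ ^ i * t₀ ^ k : Kˣ) : K)‖ < 1 ∧
        ∃ t : Kˣ, t ^ p = Units.mk0 q hq0 ∧ ∃ m : ℕ, ¬ p ∣ m ∧ m • Q = tateP q hns t := by
  have hp0 : p ≠ 0 := hp.out.ne_zero
  have hζp : (ζ : K) ^ p = 1 := hζ.pow_eq_one
  have ht₀' : (t₀ : K) ^ p = q := by
    have := congrArg (fun u : Kˣ => (u : K)) ht₀
    simpa using this
  rcases Plug.torsion_dichotomy hΔ (tateP q hns) (tateP_mul q hns hgen hq0 hq1)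
    (tateP_eq_zero_iff q hns hq0)
    (Plug.zpow_eq_one_of_norm_lt_one (q := Units.mk0 q hq0) (by rw [Units.val_mk0]; exact hq1))
    (Plug.orderOf_of_isPrimitiveRoot hζ) ht₀ hQ0 hQ with ⟨j, hj, hQj⟩ | ⟨i, k, hk0, hkp, hQik, h⟩
  · left
    refine ⟨j, hj, hQj, ?_⟩
    rw [Units.val_pow_eq_pow_val, norm_pow, Plug.norm_eq_one_of_pow_eq_one hp0 hζp, one_pow]
  · right
    have hn := Plug.norm_root_pow hp0 hq0 hq1 hζp ht₀' i hk0 hkp
    refine ⟨i, k, hk0, hkp, hQik, ?_, ?_, h⟩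
    · rw [Units.val_mul, Units.val_pow_eq_pow_val, Units.val_pow_eq_pow_val]; exact hn.1
    · rw [Units.val_mul, Units.val_pow_eq_pow_val, Units.val_pow_eq_pow_val]; exact hn.2

include hgen hq1 hΔ hζ ht₀ in
/-- **(T3d)** on the Tate curve: the Vélu sums over `⟨Q⟩ ∖ 0`, in `x`-coordinates. -/
theorem sum_dichotomy_x {M : Type*} [AddCommMonoid M] {Q : (tateCurve q).toAffine.Point}
    (hQ0 : Q ≠ 0) (hQ : p • Q = 0) :
    ((∃ j : ℕ, ¬ p ∣ j ∧ Q = tateP q hns (ζ ^ j)) ∧ ∀ g : K → M,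
        ∑ k ∈ Finset.Ico 1 p, g (xCoord (k • Q)) = ∑ k ∈ Finset.Ico 1 p, g (X q ((ζ : K) ^ k))) ∨
      ∃ i k : ℕ, 0 < k ∧ k < p ∧ Q = tateP q hns (ζ ^ i * t₀ ^ k) ∧
        ∃ t : Kˣ, (t : K) ^ p = q ∧ (∃ m : ℕ, ¬ p ∣ m ∧ m • Q = tateP q hns t) ∧
          ∀ g : K → M,
            ∑ k ∈ Finset.Ico 1 p, g (xCoord (k • Q)) =
              ∑ k ∈ Finset.Ico 1 p, g (X q ((t : K) ^ k)) := by
  have hp0 : p ≠ 0 := hp.out.ne_zero
  have hζp : (ζ : K) ^ p = 1 := hζ.pow_eq_one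
  have hqpos : 0 < ‖q‖ := norm_pos_iff.2 hq0
  rcases Plug.sum_dichotomy (M := M) hΔ (tateP q hns) (tateP_mul q hns hgen hq0 hq1)
    (tateP_eq_zero_iff q hns hq0)
    (Plug.zpow_eq_one_of_norm_lt_one (q := Units.mk0 q hq0) (by rw [Units.val_mk0]; exact hq1))
    (Plug.orderOf_of_isPrimitiveRoot hζ) ht₀ hQ0 hQ with
    ⟨hj, hsum⟩ | ⟨i, k, hk0, hkp, hQik, t, ht, hm, hsum⟩
  · left
    refine ⟨hj, fun g => ?_⟩
    rw [hsum fun R => g (xCoord R)]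
    refine Finset.sum_congr rfl fun k hk => ?_
    rw [Finset.mem_Ico] at hk
    have hadm : IsAdm q ((ζ ^ k : Kˣ) : K) := by
      rw [Units.val_pow_eq_pow_val]
      refine isAdm_of_norm_one hq0 hq1 ?_ ?_
      · rw [norm_pow, Plug.norm_eq_one_of_pow_eq_one hp0 hζp, one_pow]
      · exact hζ.pow_ne_one_of_pos_of_lt (by omega) hk.2
    rw [xCoord_tateP q hns hadm, Units.val_pow_eq_pow_val]
  · right
    have ht' : (t : K) ^ p = q := by
      have := congrArg (fun u : Kˣ => (u : K)) ht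
      simpa using this
    refine ⟨i, k, hk0, hkp, hQik, t, ht', hm, fun g => ?_⟩
    rw [hsum fun R => g (xCoord R)]
    refine Finset.sum_congr rfl fun k' hk' => ?_
    rw [Finset.mem_Ico] at hk'
    have hn := Plug.norm_root_pow (ζ := (1 : K)) hp0 hq0 hq1 (one_pow p) ht' 0
      (by omega : 0 < k') hk'.2
    rw [pow_zero, one_mul] at hn
    have hadm : IsAdm q ((t ^ k' : Kˣ) : K) := by
      rw [Units.val_pow_eq_pow_val]
      exact isAdm_of_norm_lt hq0 hn.1 hn.2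
    rw [xCoord_tateP q hns hadm, Units.val_pow_eq_pow_val]

end Fermat.Agent.GZ.Tate.T3.TatePlug
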