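/-
CELL-M3 (S12) / GATE-Z (T3) at GENERAL level `n` (helper43): the abstract core of `T3/Core.lean`
with the prime `p` replaced by an arbitrary `n ≠ 0` (`n = p^m` in the application).  Mathlib + `T3/Core`.

Setting: `P : G → E` with `hmul`, `hker` (kernel `q^ℤ`), `q` of infinite order, `ζ` of order `n`,
`t ^ n = q`.

* `zpow_mul_zpow_mem_iff`   : `ζ^a t^b ∈ q^ℤ ⟺ n ∣ a ∧ n ∣ b`              (`a b : ℤ`);
* `P_zpow_mul_zpow_eq_zero_iff`, `P_eq_P_iff` : the same for `P`;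
* `ptN`, `nsmul_ptN`, `ptN_injective` : the `n²` points `P (ζ^i t^k)`, `i, k < n`;
* `exists_eq_ptN`           : if `#E[n] ≤ n²`, every `n`-torsion point is one of them;
* `nsmul_P_eq_zero_iff`     : `d • P (ζ^i t^k) = 0 ⟺ n ∣ d i ∧ n ∣ d k`;
* `P_zeta_pow`              : `P (ζ^i) = i • P ζ` (the subgroup `P(μ_n)` is cyclic, generated by `P ζ`);
* `addOrderOf_P_zeta`       : `P ζ` has order exactly `n`.
-/
import Mathlib
import Fermat.Agent.GZ.Tate.T3.Core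

set_option autoImplicit false

namespace Fermat.Agent.GZ.Tate.T3.CoreN

open Fermat.Agent.GZ.Tate.T3.Core

variable {G : Type*} [CommGroup G] {E : Type*} [AddCommGroup E]

variable (P : G → E) (hmul : ∀ u v, P (u * v) = P u + P v)
variable {q : G} (hker : ∀ u, P u = 0 ↔ u ∈ Subgroup.zpowers q)
variable (hq : ∀ m : ℤ, q ^ m = 1 → m = 0)
variable {n : ℕ} {ζ t : G}

include hq in
/-- `t` has infinite order. -/
theorem t_zpow_eq_one (ht : t ^ n = q) {m : ℤ} (h : t ^ m = 1) : m = 0 := by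
  have h1 : q ^ m = 1 := by
    rw [← ht, ← zpow_natCast, ← zpow_mul, mul_comm, zpow_mul, h, one_zpow]
  exact hq m h1

include hq in
/-- a power of `t` which is of finite order is trivial. -/
theorem t_zpow_eq_zero_of_isOfFinOrder (ht : t ^ n = q) {m : ℤ}
    (h : IsOfFinOrder (t ^ m)) : m = 0 := by
  obtain ⟨c, hc, hc1⟩ := h.exists_pow_eq_one
  have h2 : t ^ (m * c) = 1 := by rw [zpow_mul, zpow_natCast]; exact hc1
  have h3 := t_zpow_eq_one hq ht h2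
  have hc0 : (c : ℤ) ≠ 0 := by exact_mod_cast hc.ne'
  exact (mul_eq_zero.mp h3).resolve_right hc0

include hq in
/-- **the lattice**: `ζ^a t^b ∈ q^ℤ ⟺ n ∣ a ∧ n ∣ b`. -/
theorem zpow_mul_zpow_mem_iff (hn : n ≠ 0) (hζ : orderOf ζ = n) (ht : t ^ n = q) (a b : ℤ) :
    ζ ^ a * t ^ b ∈ Subgroup.zpowers q ↔ (n : ℤ) ∣ a ∧ (n : ℤ) ∣ b := by
  have hζfin : IsOfFinOrder ζ := by
    rw [← orderOf_pos_iff, hζ]; exact Nat.pos_of_ne_zero hn
  have hqt : ∀ m : ℤ, q ^ m = t ^ ((n : ℤ) * m) := by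
    intro m
    rw [← ht, ← zpow_natCast, ← zpow_mul]
  constructor
  · intro h
    obtain ⟨m, hm⟩ := Subgroup.mem_zpowers_iff.mp h
    rw [hqt] at hm
    -- `t ^ (n m - b) = ζ ^ a`
    have hrel : t ^ ((n : ℤ) * m - b) = ζ ^ a := by
      rw [zpow_sub, hm, mul_inv_cancel_right]
    have hfin : IsOfFinOrder (t ^ ((n : ℤ) * m - b)) := by
      rw [hrel]; exact hζfin.zpow
    have hzero := t_zpow_eq_zero_of_isOfFinOrder hq ht hfin
    have hb : b = (n : ℤ) * m := by linarith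
    refine ⟨?_, ⟨m, hb⟩⟩
    rw [hzero, zpow_zero] at hrel
    have := orderOf_dvd_iff_zpow_eq_one.mpr hrel.symm
    rwa [hζ] at this
  · rintro ⟨⟨a', rfl⟩, ⟨b', rfl⟩⟩
    have hζn : ζ ^ (n : ℤ) = 1 := by
      rw [zpow_natCast, ← hζ]; exact pow_orderOf_eq_one ζ
    rw [zpow_mul, hζn, one_zpow, one_mul, ← hqt]
    exact Subgroup.zpow_mem_zpowers q b'

include hker hq in
theorem P_zpow_mul_zpow_eq_zero_iff (hn : n ≠ 0) (hζ : orderOf ζ = n) (ht : t ^ n = q)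
    (a b : ℤ) : P (ζ ^ a * t ^ b) = 0 ↔ (n : ℤ) ∣ a ∧ (n : ℤ) ∣ b := by
  rw [hker]
  exact zpow_mul_zpow_mem_iff hq hn hζ ht a b

include hmul hker hq in
theorem P_eq_P_iff (hn : n ≠ 0) (hζ : orderOf ζ = n) (ht : t ^ n = q) (a b a' b' : ℤ) :
    P (ζ ^ a * t ^ b) = P (ζ ^ a' * t ^ b') ↔ (n : ℤ) ∣ a - a' ∧ (n : ℤ) ∣ b - b' := by
  rw [P_eq_iff P hmul hker]
  have : ζ ^ a * t ^ b / (ζ ^ a' * t ^ b') = ζ ^ (a - a') * t ^ (b - b') := by
    rw [zpow_sub, zpow_sub, div_eq_mul_inv, mul_inv]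
    ac_rfl
  rw [this]
  exact zpow_mul_zpow_mem_iff hq hn hζ ht _ _

/-- the candidate `n`-torsion points `P (ζ^i t^k)`. -/
def ptN (ζ t : G) (ik : Fin n × Fin n) : E := P (ζ ^ (ik.1 : ℕ) * t ^ (ik.2 : ℕ))

include hmul hker in
theorem nsmul_ptN (hζ : ζ ^ n = 1) (ht : t ^ n = q) (ik : Fin n × Fin n) :
    n • ptN P ζ t ik = 0 := by
  rw [ptN, ← P_pow P hmul, mul_pow, ← pow_mul, ← pow_mul, mul_comm (ik.1 : ℕ),
    mul_comm (ik.2 : ℕ), pow_mul, pow_mul, hζ, one_pow, one_mul, ht]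
  exact P_q_pow P hker _

include hmul hker hq in
/-- the `n²` candidate points are pairwise distinct. -/
theorem ptN_injective (hn : n ≠ 0) (hζ : orderOf ζ = n) (ht : t ^ n = q) :
    Function.Injective (ptN (n := n) P ζ t) := by
  rintro ⟨i, k⟩ ⟨i', k'⟩ h
  rw [ptN, ptN] at h
  have h' : P (ζ ^ ((i : ℕ) : ℤ) * t ^ ((k : ℕ) : ℤ)) =
      P (ζ ^ ((i' : ℕ) : ℤ) * t ^ ((k' : ℕ) : ℤ)) := by
    simpa only [zpow_natCast] using h
  obtain ⟨hi, hk⟩ := (P_eq_P_iff P hmul hker hq hn hζ ht _ _ _ _).1 h'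
  have hi1 := i.2
  have hi2 := i'.2
  have hk1 := k.2
  have hk2 := k'.2
  have e1 : ((i : ℕ) : ℤ) - (i' : ℕ) = 0 :=
    Int.eq_zero_of_abs_lt_dvd hi (by rw [abs_lt]; constructor <;> omega)
  have e2 : ((k : ℕ) : ℤ) - (k' : ℕ) = 0 :=
    Int.eq_zero_of_abs_lt_dvd hk (by rw [abs_lt]; constructor <;> omega)
  have hi' : (i : ℕ) = (i' : ℕ) := by omega
  have hk' : (k : ℕ) = (k' : ℕ) := by omega
  exact Prod.ext (Fin.ext hi') (Fin.ext hk')

include hmul hker hq in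
/-- **Counting**: if `E[n]` has at most `n²` elements, every `n`-torsion point is `P (ζ^i t^k)`. -/
theorem exists_eq_ptN (hn : n ≠ 0) (hζ : orderOf ζ = n) (ht : t ^ n = q)
    [Finite {x : E // n • x = 0}]
    (hcard : Nat.card {x : E // n • x = 0} ≤ n ^ 2) {x : E} (hx : n • x = 0) :
    ∃ ik : Fin n × Fin n, ptN P ζ t ik = x := by
  classical
  have hζn : ζ ^ n = 1 := by rw [← hζ]; exact pow_orderOf_eq_one ζ
  let f : Fin n × Fin n → {x : E // n • x = 0} :=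
    fun ik => ⟨ptN P ζ t ik, nsmul_ptN P hmul hker hζn ht ik⟩
  have hf : Function.Injective f := fun a b h =>
    ptN_injective P hmul hker hq hn hζ ht (congrArg Subtype.val h)
  have hcard' : Nat.card {x : E // n • x = 0} ≤ Nat.card (Fin n × Fin n) := by
    rw [Nat.card_prod, Nat.card_fin, ← sq]; exact hcard
  have hbij : Function.Bijective f :=
    (Nat.bijective_iff_injective_and_card f).mpr
      ⟨hf, le_antisymm (Nat.card_le_card_of_injective f hf) hcard'⟩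
  obtain ⟨ik, hik⟩ := hbij.2 ⟨x, hx⟩
  exact ⟨ik, congrArg Subtype.val hik⟩

include hmul hker hq in
/-- the order of `P (ζ^i t^k)`: `d • P (ζ^i t^k) = 0 ⟺ n ∣ d i ∧ n ∣ d k`. -/
theorem nsmul_P_eq_zero_iff (hn : n ≠ 0) (hζ : orderOf ζ = n) (ht : t ^ n = q) (d i k : ℕ) :
    d • P (ζ ^ i * t ^ k) = 0 ↔ n ∣ d * i ∧ n ∣ d * k := by
  rw [← P_pow P hmul, mul_pow, ← pow_mul, ← pow_mul]
  have h := P_zpow_mul_zpow_eq_zero_iff P hker hq hn hζ ht ((i * d : ℕ) : ℤ) ((k * d : ℕ) : ℤ)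
  rw [zpow_natCast, zpow_natCast] at h
  rw [h, Int.natCast_dvd_natCast, Int.natCast_dvd_natCast, mul_comm i d, mul_comm k d]

include hmul in
/-- `P (ζ^i) = i • P ζ`. -/
theorem P_zeta_pow (i : ℕ) : P (ζ ^ i) = i • P ζ := P_pow P hmul ζ i

include hmul hker hq in
/-- `d • P ζ = 0 ⟺ n ∣ d`. -/
theorem nsmul_P_zeta_eq_zero_iff (hn : n ≠ 0) (hζ : orderOf ζ = n) (ht : t ^ n = q) (d : ℕ) :
    d • P ζ = 0 ↔ n ∣ d := by
  have h := nsmul_P_eq_zero_iff P hmul hker hq hn hζ ht d 1 0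
  rw [pow_one, pow_zero, mul_one, mul_one, mul_zero] at h
  rw [h]
  exact ⟨fun h => h.1, fun h => ⟨h, dvd_zero n⟩⟩

include hmul hker hq in
/-- `P ζ` has order exactly `n`. -/
theorem addOrderOf_P_zeta (hn : n ≠ 0) (hζ : orderOf ζ = n) (ht : t ^ n = q) :
    addOrderOf (P ζ) = n := by
  apply Nat.dvd_antisymm
  · exact addOrderOf_dvd_of_nsmul_eq_zero
      ((nsmul_P_zeta_eq_zero_iff P hmul hker hq hn hζ ht n).2 dvd_rfl)
  · exact (nsmul_P_zeta_eq_zero_iff P hmul hker hq hn hζ ht _).1 (addOrderOf_nsmul_eq_zero _)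

include hmul hker hq in
/-- `d • P t = 0 ⟺ n ∣ d`: `P t` has order exactly `n`. -/
theorem nsmul_P_t_eq_zero_iff (hn : n ≠ 0) (hζ : orderOf ζ = n) (ht : t ^ n = q) (d : ℕ) :
    d • P t = 0 ↔ n ∣ d := by
  have h := nsmul_P_eq_zero_iff P hmul hker hq hn hζ ht d 0 1
  rw [pow_one, pow_zero, one_mul, mul_one, mul_zero] at h
  rw [h]
  exact ⟨fun h => h.2, fun h => ⟨dvd_zero n, h⟩⟩

end Fermat.Agent.GZ.Tate.T3.CoreN
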