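/-
CELL-M3 (S12) / GATE-Z (T3) at GENERAL level `n` on the Tate curve (helper43): `T3/CoreN`
instantiated at `T2/Hom.tateP`.

Binders as in `T3/TatePlug.lean`: `hns`, `hgen` (now theorems: `T2.Final.hns`, `T2.WpYPlug.hgen`),
`hΔ : (tateCurve q).Δ ≠ 0`, `[CharZero K]`; `n ≠ 0`, `ζ` a primitive `n`-th root of unity of `K`,
`t ^ n = q`.

* `torsionN_eq_pt`            : `E_q[n](K) = {tateP (ζ^i t^k) : i, k < n}`;
* `tateP_zpow_mul_zpow_eq_zero_iff`, `tateP_eq_tateP_iff`, `nsmul_tateP_eq_zero_iff` : the lattice;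
* `addOrderOf_tateP_zeta`, `addOrderOf_tateP_t` : `tateP ζ`, `tateP t` have order exactly `n`;
* `norm_param`, `norm_param_lt`, `exists_zpow_norm_eq_one_iff` : `‖ζ^i t^k‖ = ‖t‖^k ∈ (‖q‖, 1]`,
  and some `q^ℤ`-translate is a unit iff `k = 0`;
* `torsionN_unit_iff`         : the `n`-torsion points with a unit parameter (= the zero component,
  `T4.inZeroComponentAt_iff_of_toTate_eq_tateP`) are exactly the multiples of `tateP ζ`:
  `E⁰[n] = P(μ_n)` is cyclic of order `n`.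
-/
import Fermat.Agent.GZ.Tate.T2.Hom
import Fermat.Agent.GZ.Tate.T3.Plug
import Fermat.Agent.GZ.Tate.T3.TatePlug
import Fermat.Agent.GZ.Tate.T3.CoreN

set_option autoImplicit false

noncomputable section

namespace Fermat.Agent.GZ.Tate.T3.TatePlugN

open WeierstrassCurve Fermat.Agent.GZ.Tate Fermat.Agent.GZ.Tate.T2 Fermat.Agent.GZ.Tate.T2.Hom

universe u

variable {K : Type u} [NormedField K]
variable [IsUltrametricDist K] [CompleteSpace K] [CharZero K] [DecidableEq K]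
variable (q : K)
variable (hns : ∀ u : K, IsAdm q u → (tateCurve q).toAffine.Nonsingular (X q u) (Y q u))
variable (hgen : ∀ u v : K, IsAdm q u → IsAdm q v → IsAdm q (u * v) → X q u ≠ X q v →
  ColRel (X q u) (Y q u) (X q v) (Y q v) (X q (u * v)) (Y q (u * v)) ∧
    SumRel (X q u) (Y q u) (X q v) (Y q v) (X q (u * v)))
variable (hq0 : q ≠ 0) (hq1 : ‖q‖ < 1) (hΔ : (tateCurve q).Δ ≠ 0)
variable {n : ℕ} (hn : n ≠ 0) {ζ t : Kˣ} (hζ : IsPrimitiveRoot (ζ : K) n)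
  (ht : t ^ n = Units.mk0 q hq0)

omit [IsUltrametricDist K] [CompleteSpace K] [CharZero K] [DecidableEq K] in
include hq1 in
theorem hq_inf : ∀ m : ℤ, (Units.mk0 q hq0) ^ m = 1 → m = 0 :=
  Plug.zpow_eq_one_of_norm_lt_one (q := Units.mk0 q hq0) (by rw [Units.val_mk0]; exact hq1)

include hgen hq1 hΔ hn hζ ht in
/-- **(T3b) at level `n`**: `E_q[n](K) = {tateP (ζ^i t^k)}`. -/
theorem torsionN_eq_pt {Q : (tateCurve q).toAffine.Point} (hQ : n • Q = 0) :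
    ∃ i k : ℕ, i < n ∧ k < n ∧ Q = tateP q hns (ζ ^ i * t ^ k) := by
  have h1 : 1 ≤ n := Nat.one_le_iff_ne_zero.2 hn
  have := Count.finite_torsion' (tateCurve q) hΔ n h1
  obtain ⟨⟨i, k⟩, hik⟩ := CoreN.exists_eq_ptN (tateP q hns) (tateP_mul q hns hgen hq0 hq1)
    (tateP_eq_zero_iff q hns hq0) (hq_inf q hq0 hq1) hn (Plug.orderOf_of_isPrimitiveRoot hζ) ht
    (Count.card_torsion_le (tateCurve q) hΔ n h1) hQ
  exact ⟨i, k, i.2, k.2, hik.symm⟩

include hq1 hn hζ ht in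
omit [CharZero K] [IsUltrametricDist K] [CompleteSpace K] in
/-- the lattice: `tateP (ζ^a t^b) = 0 ⟺ n ∣ a ∧ n ∣ b`. -/
theorem tateP_zpow_mul_zpow_eq_zero_iff (a b : ℤ) :
    tateP q hns (ζ ^ a * t ^ b) = 0 ↔ (n : ℤ) ∣ a ∧ (n : ℤ) ∣ b :=
  CoreN.P_zpow_mul_zpow_eq_zero_iff (tateP q hns) (tateP_eq_zero_iff q hns hq0) (hq_inf q hq0 hq1)
    hn (Plug.orderOf_of_isPrimitiveRoot hζ) ht a b

include hgen hq1 hn hζ ht in
omit [CharZero K] in
theorem tateP_eq_tateP_iff (a b a' b' : ℤ) :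
    tateP q hns (ζ ^ a * t ^ b) = tateP q hns (ζ ^ a' * t ^ b') ↔
      (n : ℤ) ∣ a - a' ∧ (n : ℤ) ∣ b - b' :=
  CoreN.P_eq_P_iff (tateP q hns) (tateP_mul q hns hgen hq0 hq1) (tateP_eq_zero_iff q hns hq0)
    (hq_inf q hq0 hq1) hn (Plug.orderOf_of_isPrimitiveRoot hζ) ht a b a' b'

include hgen hq1 hn hζ ht in
omit [CharZero K] in
/-- `d • tateP (ζ^i t^k) = 0 ⟺ n ∣ d i ∧ n ∣ d k`. -/
theorem nsmul_tateP_eq_zero_iff (d i k : ℕ) :
    d • tateP q hns (ζ ^ i * t ^ k) = 0 ↔ n ∣ d * i ∧ n ∣ d * k :=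
  CoreN.nsmul_P_eq_zero_iff (tateP q hns) (tateP_mul q hns hgen hq0 hq1)
    (tateP_eq_zero_iff q hns hq0) (hq_inf q hq0 hq1) hn (Plug.orderOf_of_isPrimitiveRoot hζ) ht d i k

include hgen hq1 hn hζ ht in
omit [CharZero K] in
/-- `tateP ζ` has order exactly `n`. -/
theorem addOrderOf_tateP_zeta : addOrderOf (tateP q hns ζ) = n :=
  CoreN.addOrderOf_P_zeta (tateP q hns) (tateP_mul q hns hgen hq0 hq1)
    (tateP_eq_zero_iff q hns hq0) (hq_inf q hq0 hq1) hn (Plug.orderOf_of_isPrimitiveRoot hζ) ht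

include hgen hq1 hn hζ ht in
omit [CharZero K] in
/-- `d • tateP t = 0 ⟺ n ∣ d`. -/
theorem nsmul_tateP_t_eq_zero_iff (d : ℕ) : d • tateP q hns t = 0 ↔ n ∣ d :=
  CoreN.nsmul_P_t_eq_zero_iff (tateP q hns) (tateP_mul q hns hgen hq0 hq1)
    (tateP_eq_zero_iff q hns hq0) (hq_inf q hq0 hq1) hn (Plug.orderOf_of_isPrimitiveRoot hζ) ht d

include hgen hq0 hq1 in
omit [CharZero K] in
/-- `tateP (u ^ i) = i • tateP u`. -/
theorem tateP_pow (u : Kˣ) (i : ℕ) : tateP q hns (u ^ i) = i • tateP q hns u :=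
  Core.P_pow (tateP q hns) (tateP_mul q hns hgen hq0 hq1) u i

/-! ### norms -/

omit [IsUltrametricDist K] [CompleteSpace K] [CharZero K] [DecidableEq K] in
include ht in
theorem norm_t_pow : ‖(t : K)‖ ^ n = ‖q‖ := by
  have := congrArg (fun u : Kˣ => ‖(u : K)‖) ht
  simpa [Units.val_pow_eq_pow_val] using this

omit [IsUltrametricDist K] [CompleteSpace K] [CharZero K] [DecidableEq K] in
include hn hζ in
theorem norm_zeta : ‖(ζ : K)‖ = 1 := Plug.norm_eq_one_of_pow_eq_one hn hζ.pow_eq_one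

omit [IsUltrametricDist K] [CompleteSpace K] [CharZero K] [DecidableEq K] in
include hn hζ in
theorem norm_param (i k : ℕ) : ‖((ζ ^ i * t ^ k : Kˣ) : K)‖ = ‖(t : K)‖ ^ k := by
  rw [Units.val_mul, Units.val_pow_eq_pow_val, Units.val_pow_eq_pow_val, norm_mul, norm_pow,
    norm_pow, norm_zeta hn hζ, one_pow, one_mul]

omit [IsUltrametricDist K] [CompleteSpace K] [CharZero K] [DecidableEq K] in
include hq1 ht in
theorem norm_t_pos_lt : 0 < ‖(t : K)‖ ∧ ‖(t : K)‖ < 1 := by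
  have htq := norm_t_pow q hq0 ht
  refine ⟨norm_pos_iff.2 t.ne_zero, ?_⟩
  by_contra hge
  rw [not_lt] at hge
  have : 1 ≤ ‖(t : K)‖ ^ n := one_le_pow₀ hge
  rw [htq] at this
  exact absurd hq1 (not_lt.mpr this)

omit [IsUltrametricDist K] [CompleteSpace K] [CharZero K] [DecidableEq K] in
include hn hq1 hζ ht in
/-- for `0 < k < n`: `‖q‖ < ‖ζ^i t^k‖ < 1`. -/
theorem norm_param_lt (i : ℕ) {k : ℕ} (hk0 : 0 < k) (hkn : k < n) :
    ‖q‖ < ‖((ζ ^ i * t ^ k : Kˣ) : K)‖ ∧ ‖((ζ ^ i * t ^ k : Kˣ) : K)‖ < 1 := by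
  obtain ⟨ht0, ht1⟩ := norm_t_pos_lt q hq0 hq1 ht
  rw [norm_param hn hζ]
  refine ⟨?_, pow_lt_one₀ ht0.le ht1 hk0.ne'⟩
  rw [← norm_t_pow q hq0 ht]
  exact pow_lt_pow_right_of_lt_one₀ ht0 ht1 hkn

omit [IsUltrametricDist K] [CompleteSpace K] [CharZero K] [DecidableEq K] in
include hn hq1 hζ ht in
/-- some `q^ℤ`-translate of `ζ^i t^k` (`k < n`) is a unit iff `k = 0`. -/
theorem exists_zpow_norm_eq_one_iff (i : ℕ) {k : ℕ} (hkn : k < n) :
    (∃ m : ℤ, ‖q ^ m * ((ζ ^ i * t ^ k : Kˣ) : K)‖ = 1) ↔ k = 0 := by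
  obtain ⟨ht0, ht1⟩ := norm_t_pos_lt q hq0 hq1 ht
  constructor
  · rintro ⟨m, hm⟩
    rw [norm_mul, norm_zpow, norm_param hn hζ, ← norm_t_pow q hq0 ht, ← zpow_natCast,
      ← zpow_natCast, ← zpow_mul, ← zpow_add₀ ht0.ne'] at hm
    have hexp : (n : ℤ) * m + (k : ℤ) = 0 := by
      by_contra hne
      rcases lt_or_gt_of_ne hne with hneg | hpos
      · have : 1 < ‖(t : K)‖ ^ ((n : ℤ) * m + k) := one_lt_zpow_of_neg₀ ht0 ht1 hneg
        rw [hm] at this; exact lt_irrefl _ this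
      · have : ‖(t : K)‖ ^ ((n : ℤ) * m + k) < 1 := zpow_lt_one₀ ht0 ht1 hpos
        rw [hm] at this; exact lt_irrefl _ this
    have hdvd : (n : ℤ) ∣ (k : ℤ) := ⟨-m, by linarith⟩
    have := Int.eq_zero_of_abs_lt_dvd hdvd (by rw [abs_lt]; constructor <;> omega)
    exact_mod_cast this
  · rintro rfl
    refine ⟨0, ?_⟩
    rw [zpow_zero, one_mul, norm_param hn hζ, pow_zero]

/-! ### the zero component: `E⁰[n] = P(μ_n)` -/

include hgen hq0 hq1 hn hζ in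
omit [CharZero K] in
/-- **`E⁰[n] = P(μ_n)`**: an `n`-torsion point has a unit parameter iff it is a multiple of
`tateP ζ`. -/
theorem torsionN_unit_iff {Q : (tateCurve q).toAffine.Point} (hQ : n • Q = 0) :
    (∃ u : Kˣ, ‖(u : K)‖ = 1 ∧ Q = tateP q hns u) ↔ ∃ i : ℕ, i < n ∧ Q = i • tateP q hns ζ := by
  have hqpos : 0 < ‖q‖ := norm_pos_iff.2 hq0
  constructor
  · rintro ⟨u, hu, rfl⟩
    rw [← tateP_pow q hns hgen hq0 hq1, tateP_eq_zero_iff q hns hq0] at hQ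
    obtain ⟨m, hm⟩ := Subgroup.mem_zpowers_iff.mp hQ
    have hm' : q ^ m = (u : K) ^ n := by
      have := congrArg (fun w : Kˣ => (w : K)) hm
      simpa [Units.val_zpow_eq_zpow_val, Units.val_pow_eq_pow_val] using this
    have hnorm : ‖q‖ ^ m = 1 := by rw [← norm_zpow, hm', norm_pow, hu, one_pow]
    have hm0 : m = 0 := by
      by_contra hne
      rcases lt_or_gt_of_ne hne with hneg | hpos
      · have : 1 < ‖q‖ ^ m := one_lt_zpow_of_neg₀ hqpos hq1 hneg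
        rw [hnorm] at this; exact lt_irrefl _ this
      · have : ‖q‖ ^ m < 1 := zpow_lt_one₀ hqpos hq1 hpos
        rw [hnorm] at this; exact lt_irrefl _ this
    rw [hm0, zpow_zero] at hm'
    have : NeZero n := ⟨hn⟩
    obtain ⟨i, hi, hiu⟩ := hζ.eq_pow_of_pow_eq_one hm'.symm
    refine ⟨i, hi, ?_⟩
    rw [← tateP_pow q hns hgen hq0 hq1]
    congr 1
    apply Units.ext
    rw [Units.val_pow_eq_pow_val, hiu]
  · rintro ⟨i, -, rfl⟩
    refine ⟨ζ ^ i, ?_, (tateP_pow q hns hgen hq0 hq1 ζ i).symm⟩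
    rw [Units.val_pow_eq_pow_val, norm_pow, norm_zeta hn hζ, one_pow]

end Fermat.Agent.GZ.Tate.T3.TatePlugN
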