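/-
CELL-M3 (S12) / GATE-Z (T3), BINDER-FREE (helper43): `T3/TatePlug` (prime level) and `T3/TatePlugN`
(general level `n`) with `hns`, `hgen`, `hΔ` discharged by `T2/Final.lean` (helper21),
`Weq/Closed.lean` (helper71), `T0/Bridge.lean` (helper3).  `K` complete ultrametric, char. zero,
`0 < ‖q‖ < 1`, `ζ` a primitive `n`-th root of unity, `t ^ n = q`.
-/
import Fermat.Agent.GZ.Tate.T2.Final
import Fermat.Agent.GZ.Tate.T0.Bridge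
import Fermat.Agent.GZ.Tate.T3.TatePlugN

set_option autoImplicit false

noncomputable section

namespace Fermat.Agent.GZ.Tate.T3.FinalN

open WeierstrassCurve Fermat.Agent.GZ.Tate Fermat.Agent.GZ.Tate.T2

universe v

variable {K : Type v} [NormedField K] [IsUltrametricDist K] [CompleteSpace K]

/-- the `hgen` binder of `T2/Hom`, `T3/TatePlug`, as a theorem. -/
theorem hgen {q : K} (hq0 : q ≠ 0) (hq1 : ‖q‖ < 1) :
    ∀ u v : K, IsAdm q u → IsAdm q v → IsAdm q (u * v) → X q u ≠ X q v →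
      ColRel (X q u) (Y q u) (X q v) (Y q v) (X q (u * v)) (Y q (u * v)) ∧
        SumRel (X q u) (Y q u) (X q v) (Y q v) (X q (u * v)) :=
  fun _ _ hu hv huv _ => Final.rel hq0 hq1 hu hv huv

/-- `Δ(E_q) ≠ 0`. -/
theorem hΔ {q : K} (hq0 : q ≠ 0) (hq1 : ‖q‖ < 1) : (tateCurve q).Δ ≠ 0 :=
  T0.pinned_Δ_ne_zero q hq1 hq0

variable [CharZero K] [DecidableEq K]
variable {q : K} (hq0 : q ≠ 0) (hq1 : ‖q‖ < 1)
variable {n : ℕ} (hn : n ≠ 0) {ζ t : Kˣ} (hζ : IsPrimitiveRoot (ζ : K) n)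
  (ht : t ^ n = Units.mk0 q hq0)

include hn hζ ht in
/-- **`E_q[n](K) = {P (ζ^i t^k) : i, k < n}`**, binder-free. -/
theorem torsionN_eq_pt {Q : (tateCurve q).toAffine.Point} (hQ : n • Q = 0) :
    ∃ i k : ℕ, i < n ∧ k < n ∧ Q = Final.tateP q hq0 hq1 (ζ ^ i * t ^ k) :=
  TatePlugN.torsionN_eq_pt q (Final.hns hq0 hq1) (hgen hq0 hq1) hq0 hq1 (hΔ hq0 hq1) hn hζ ht hQ

include hn hζ ht in
omit [CharZero K] in
/-- the lattice: `P (ζ^a t^b) = 0 ⟺ n ∣ a ∧ n ∣ b`. -/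
theorem tateP_zpow_mul_zpow_eq_zero_iff (a b : ℤ) :
    Final.tateP q hq0 hq1 (ζ ^ a * t ^ b) = 0 ↔ (n : ℤ) ∣ a ∧ (n : ℤ) ∣ b :=
  TatePlugN.tateP_zpow_mul_zpow_eq_zero_iff q (Final.hns hq0 hq1) hq0 hq1 hn hζ ht a b

include hn hζ ht in
omit [CharZero K] in
theorem tateP_eq_tateP_iff (a b a' b' : ℤ) :
    Final.tateP q hq0 hq1 (ζ ^ a * t ^ b) = Final.tateP q hq0 hq1 (ζ ^ a' * t ^ b') ↔
      (n : ℤ) ∣ a - a' ∧ (n : ℤ) ∣ b - b' :=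
  TatePlugN.tateP_eq_tateP_iff q (Final.hns hq0 hq1) (hgen hq0 hq1) hq0 hq1 hn hζ ht a b a' b'

include hn hζ ht in
omit [CharZero K] in
/-- `d • P (ζ^i t^k) = 0 ⟺ n ∣ d i ∧ n ∣ d k`. -/
theorem nsmul_tateP_eq_zero_iff (d i k : ℕ) :
    d • Final.tateP q hq0 hq1 (ζ ^ i * t ^ k) = 0 ↔ n ∣ d * i ∧ n ∣ d * k :=
  TatePlugN.nsmul_tateP_eq_zero_iff q (Final.hns hq0 hq1) (hgen hq0 hq1) hq0 hq1 hn hζ ht d i k

include hn hζ ht in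
omit [CharZero K] in
/-- `P ζ` has order exactly `n`. -/
theorem addOrderOf_tateP_zeta : addOrderOf (Final.tateP q hq0 hq1 ζ) = n :=
  TatePlugN.addOrderOf_tateP_zeta q (Final.hns hq0 hq1) (hgen hq0 hq1) hq0 hq1 hn hζ ht

include hn hζ ht in
omit [CharZero K] in
/-- `d • P t = 0 ⟺ n ∣ d`. -/
theorem nsmul_tateP_t_eq_zero_iff (d : ℕ) : d • Final.tateP q hq0 hq1 t = 0 ↔ n ∣ d :=
  TatePlugN.nsmul_tateP_t_eq_zero_iff q (Final.hns hq0 hq1) (hgen hq0 hq1) hq0 hq1 hn hζ ht d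

omit [CharZero K] in
/-- `P (u ^ i) = i • P u`. -/
theorem tateP_pow (u : Kˣ) (i : ℕ) :
    Final.tateP q hq0 hq1 (u ^ i) = i • Final.tateP q hq0 hq1 u :=
  TatePlugN.tateP_pow q (Final.hns hq0 hq1) (hgen hq0 hq1) hq0 hq1 u i

include hn hζ in
omit [CharZero K] in
/-- **`E⁰[n] = P(μ_n)`**, binder-free: an `n`-torsion point has a unit parameter iff it is a
multiple of `P ζ`. -/
theorem torsionN_unit_iff {Q : (tateCurve q).toAffine.Point} (hQ : n • Q = 0) :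
    (∃ u : Kˣ, ‖(u : K)‖ = 1 ∧ Q = Final.tateP q hq0 hq1 u) ↔
      ∃ i : ℕ, i < n ∧ Q = i • Final.tateP q hq0 hq1 ζ :=
  TatePlugN.torsionN_unit_iff q (Final.hns hq0 hq1) (hgen hq0 hq1) hq0 hq1 hn hζ hQ

/-! ### prime level (`T3/TatePlug`), binder-free -/

variable {p : ℕ} [hp : Fact p.Prime] {ζ' t₀ : Kˣ} (hζ' : IsPrimitiveRoot (ζ' : K) p)
  (ht₀ : t₀ ^ p = Units.mk0 q hq0)

include hζ' ht₀ in
/-- `TatePlug.torsion_dichotomy`, binder-free. -/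
theorem torsion_dichotomy {Q : (tateCurve q).toAffine.Point} (hQ0 : Q ≠ 0) (hQ : p • Q = 0) :
    (∃ j : ℕ, ¬ p ∣ j ∧ Q = Final.tateP q hq0 hq1 (ζ' ^ j) ∧ ‖((ζ' ^ j : Kˣ) : K)‖ = 1) ∨
      ∃ i k : ℕ, 0 < k ∧ k < p ∧ Q = Final.tateP q hq0 hq1 (ζ' ^ i * t₀ ^ k) ∧
        ‖q‖ < ‖((ζ' ^ i * t₀ ^ k : Kˣ) : K)‖ ∧ ‖((ζ' ^ i * t₀ ^ k : Kˣ) : K)‖ < 1 ∧
        ∃ t : Kˣ, t ^ p = Units.mk0 q hq0 ∧ ∃ m : ℕ, ¬ p ∣ m ∧
          m • Q = Final.tateP q hq0 hq1 t :=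
  TatePlug.torsion_dichotomy q (Final.hns hq0 hq1) (hgen hq0 hq1) hq0 hq1 (hΔ hq0 hq1) hζ' ht₀
    hQ0 hQ

end Fermat.Agent.GZ.Tate.T3.FinalN
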