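/-
CELL-M3 (S12) / (T3N) "Export ALSO" of helper9's DESIGN v1 (helper43): the normal form of a point
of exact order `p^k` on the Tate curve whose `p`-multiple lies in the zero component.

`K` complete ultrametric of characteristic zero, `0 < ‖q‖ < 1`, `ζ` a primitive `p^k`-th root of
unity, `t ^ (p^k) = q`, `P = T2.Final.tateP q hq0 hq1`.

* `dvd_of_nsmul_unit`   : `p • P (ζ^i t^j)` has a unit parameter ⟹ `p^k ∣ p * j`;
* `exact_order_cases`   : `g` of exact order `p^k`, `p • g = P u` with `‖u‖ = 1` ⟹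
    [CAN] `g = P (ζ^b)`, `p ∤ b`, or
    [MIX] `g = P (ζ^b * t₁^e)`, `t₁ = t^(p^(k-1))` (so `t₁^p = q`), `0 < e < p`, and `p ∤ b` if `2 ≤ k`.
-/
import Fermat.Agent.GZ.Tate.T3.FinalN

set_option autoImplicit false

noncomputable section

namespace Fermat.Agent.GZ.Tate.T3.CyclicN

open WeierstrassCurve Fermat.Agent.GZ.Tate Fermat.Agent.GZ.Tate.T2

universe v

variable {K : Type v} [NormedField K] [IsUltrametricDist K] [CompleteSpace K] [DecidableEq K]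
variable {q : K} (hq0 : q ≠ 0) (hq1 : ‖q‖ < 1)

section General

variable {n : ℕ} (hn : n ≠ 0) {ζ t : Kˣ} (hζ : IsPrimitiveRoot (ζ : K) n)
  (ht : t ^ n = Units.mk0 q hq0)

include hn hζ ht in
/-- if `d • P (ζ^i t^j)` has a unit parameter then `n ∣ d * j`. -/
theorem dvd_of_nsmul_unit (d i j : ℕ)
    (h : ∃ u : Kˣ, ‖(u : K)‖ = 1 ∧
      d • Final.tateP q hq0 hq1 (ζ ^ i * t ^ j) = Final.tateP q hq0 hq1 u) :
    n ∣ d * j := by
  obtain ⟨u, hu, hPu⟩ := h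
  obtain ⟨ht0, ht1⟩ := TatePlugN.norm_t_pos_lt q hq0 hq1 ht
  rw [← FinalN.tateP_pow hq0 hq1] at hPu
  have hmem := (Core.P_eq_iff (Final.tateP q hq0 hq1) (Final.tateP_mul hq0 hq1)
    (Final.tateP_eq_zero_iff hq0 hq1) _ _).1 hPu
  obtain ⟨m, hm⟩ := Subgroup.mem_zpowers_iff.mp hmem
  have hm' : q ^ m = ((ζ : K) ^ i * (t : K) ^ j) ^ d / (u : K) := by
    have := congrArg (fun w : Kˣ => (w : K)) hm
    simpa [Units.val_zpow_eq_zpow_val, Units.val_pow_eq_pow_val, Units.val_div_eq_div_val]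
      using this
  have hnorm : ‖(t : K)‖ ^ ((n : ℤ) * m) = ‖(t : K)‖ ^ ((d * j : ℕ) : ℤ) := by
    have h1 : ‖q ^ m‖ = ‖(t : K)‖ ^ ((n : ℤ) * m) := by
      rw [norm_zpow, ← TatePlugN.norm_t_pow q hq0 ht, ← zpow_natCast, ← zpow_mul]
    have h2 : ‖((ζ : K) ^ i * (t : K) ^ j) ^ d / (u : K)‖ = ‖(t : K)‖ ^ ((d * j : ℕ) : ℤ) := by
      rw [norm_div, hu, div_one, norm_pow, norm_mul, norm_pow, norm_pow,
        TatePlugN.norm_zeta hn hζ, one_pow, one_mul, ← pow_mul, zpow_natCast, mul_comm j d]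
    rw [← h1, hm', h2]
  have hexp := zpow_right_injective₀ ht0 ht1.ne hnorm
  have : (n : ℤ) ∣ ((d * j : ℕ) : ℤ) := ⟨m, hexp.symm⟩
  exact_mod_cast this

end General

section PrimePower

variable {p k : ℕ} (hp : p.Prime) {ζ t : Kˣ} (hζ : IsPrimitiveRoot (ζ : K) (p ^ (k + 1)))
  (ht : t ^ (p ^ (k + 1)) = Units.mk0 q hq0)

include ht in
omit [IsUltrametricDist K] [CompleteSpace K] [DecidableEq K] in
/-- `t₁ := t^(p^k)` is a `p`-th root of `q`. -/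
theorem t₁_pow : (t ^ (p ^ k)) ^ p = Units.mk0 q hq0 := by
  rw [← pow_mul, ← pow_succ, ht]

variable [CharZero K]

include hp hζ ht in
/-- **normal form of a generator** (level `p^(k+1)`): `g` of exact order `p^(k+1)` with `p • g` in the
zero component is `P (ζ^b)`, `p ∤ b` [CAN], or `P (ζ^b * t₁^e)` with `t₁ = t^(p^k)`, `0 < e < p`
[MIX], and `p ∤ b` as soon as `1 ≤ k`. -/
theorem exact_order_cases {g : (tateCurve q).toAffine.Point}
    (hord : addOrderOf g = p ^ (k + 1))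
    (hE0 : ∃ u : Kˣ, ‖(u : K)‖ = 1 ∧ p • g = Final.tateP q hq0 hq1 u) :
    (∃ b : ℕ, b < p ^ (k + 1) ∧ ¬ p ∣ b ∧ g = Final.tateP q hq0 hq1 (ζ ^ b)) ∨
      ∃ b e : ℕ, b < p ^ (k + 1) ∧ 0 < e ∧ e < p ∧ (1 ≤ k → ¬ p ∣ b) ∧
        g = Final.tateP q hq0 hq1 (ζ ^ b * (t ^ (p ^ k)) ^ e) := by
  have hn : p ^ (k + 1) ≠ 0 := pow_ne_zero _ hp.ne_zero
  have hpk : 0 < p ^ k := pow_pos hp.pos k
  have hgn : p ^ (k + 1) • g = 0 := by rw [← hord]; exact addOrderOf_nsmul_eq_zero g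
  obtain ⟨i, j, hi, hj, rfl⟩ := FinalN.torsionN_eq_pt hq0 hq1 hn hζ ht hgn
  -- `p^k ∣ j`
  have hdvd : p ^ (k + 1) ∣ p * j := dvd_of_nsmul_unit hq0 hq1 hn hζ ht p i j hE0
  have hdvd' : p ^ k ∣ j := by
    rw [pow_succ, mul_comm] at hdvd
    exact (Nat.mul_dvd_mul_iff_left hp.pos).1 hdvd
  obtain ⟨e, rfl⟩ := hdvd'
  have he : e < p := by
    rw [pow_succ] at hj
    exact lt_of_mul_lt_mul_left hj (Nat.zero_le _)
  -- a lower multiple does not kill `g`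
  have hnot : ¬ p ^ k • Final.tateP q hq0 hq1 (ζ ^ i * t ^ (p ^ k * e)) = 0 := by
    intro h0
    have := addOrderOf_dvd_of_nsmul_eq_zero h0
    rw [hord, pow_succ] at this
    have h1 : p ^ k * p ≤ p ^ k := Nat.le_of_dvd hpk this
    have h2 : p ^ k * 2 ≤ p ^ k * p := Nat.mul_le_mul_left _ hp.two_le
    omega
  rw [FinalN.nsmul_tateP_eq_zero_iff hq0 hq1 hn hζ ht] at hnot
  rcases Nat.eq_zero_or_pos e with he0 | he0
  · left
    subst he0
    refine ⟨i, hi, fun hpi => hnot ⟨?_, ?_⟩, ?_⟩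
    · obtain ⟨c, rfl⟩ := hpi
      exact ⟨c, by rw [pow_succ]; ring⟩
    · rw [mul_zero, mul_zero]; exact dvd_zero _
    · rw [mul_zero, pow_zero, mul_one]
  · right
    refine ⟨i, e, hi, he0, he, fun hk hpi => hnot ⟨?_, ?_⟩, ?_⟩
    · obtain ⟨c, rfl⟩ := hpi
      exact ⟨c, by rw [pow_succ]; ring⟩
    · obtain ⟨k', rfl⟩ : ∃ k', k = k' + 1 := ⟨k - 1, by omega⟩
      exact ⟨p ^ k' * e, by rw [pow_succ, pow_succ]; ring⟩
    · rw [← pow_mul]

end PrimePower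

end Fermat.Agent.GZ.Tate.T3.CyclicN
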