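/-
CELL-M3 (S12) / (T3N), the basis form (helper43): `E_q[n](K) = ⟨P ζ⟩ ⊕ ⟨P t⟩ ≅ (ℤ/n)²` with
`E⁰[n] = ⟨P ζ⟩`, binder-free (`P = T2.Final.tateP q hq0 hq1`, `ζ` a primitive `n`-th root of unity,
`t ^ n = q`).  This is the Tate side of helper9's (LOC c): `E⁰ ∩ E[n]` cyclic of order `n`,
`E[n] / (E⁰ ∩ E[n])` cyclic of order `n` (generated by the class of `P t`).

* `tateP_zeta_pow_mul_t_pow` : `P (ζ^i t^k) = i • P ζ + k • P t`;
* `torsionN_decomp`          : every `Q` with `n • Q = 0` is `i • P ζ + k • P t`, `i, k < n`;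
* `basis_eq_zero_iff`        : `i • P ζ + k • P t = 0 ⟺ n ∣ i ∧ n ∣ k`;
* `basis_unit_iff`           : `i • P ζ + k • P t` has a unit parameter `⟺ n ∣ k`;
* `nsmul_t_unit_iff`         : `c • P t` has a unit parameter `⟺ n ∣ c`.
-/
import Fermat.Agent.GZ.Tate.T3.CyclicN

set_option autoImplicit false

noncomputable section

namespace Fermat.Agent.GZ.Tate.T3.BasisN

open WeierstrassCurve Fermat.Agent.GZ.Tate Fermat.Agent.GZ.Tate.T2

universe v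

variable {K : Type v} [NormedField K] [IsUltrametricDist K] [CompleteSpace K] [DecidableEq K]
variable {q : K} (hq0 : q ≠ 0) (hq1 : ‖q‖ < 1)
variable {n : ℕ} (hn : n ≠ 0) {ζ t : Kˣ} (hζ : IsPrimitiveRoot (ζ : K) n)
  (ht : t ^ n = Units.mk0 q hq0)

/-- `P (ζ^i t^k) = i • P ζ + k • P t`. -/
theorem tateP_zeta_pow_mul_t_pow (ζ t : Kˣ) (i k : ℕ) :
    Final.tateP q hq0 hq1 (ζ ^ i * t ^ k) =
      i • Final.tateP q hq0 hq1 ζ + k • Final.tateP q hq0 hq1 t := by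
  rw [Final.tateP_mul hq0 hq1, FinalN.tateP_pow hq0 hq1, FinalN.tateP_pow hq0 hq1]

include hn hζ ht in
/-- **`E_q[n] = ⟨P ζ⟩ + ⟨P t⟩`.** -/
theorem torsionN_decomp [CharZero K] {Q : (tateCurve q).toAffine.Point} (hQ : n • Q = 0) :
    ∃ i k : ℕ, i < n ∧ k < n ∧
      Q = i • Final.tateP q hq0 hq1 ζ + k • Final.tateP q hq0 hq1 t := by
  obtain ⟨i, k, hi, hk, rfl⟩ := FinalN.torsionN_eq_pt hq0 hq1 hn hζ ht hQ
  exact ⟨i, k, hi, hk, tateP_zeta_pow_mul_t_pow hq0 hq1 ζ t i k⟩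

include hn hζ ht in
/-- the sum is direct, and both generators have order exactly `n`. -/
theorem basis_eq_zero_iff (i k : ℕ) :
    i • Final.tateP q hq0 hq1 ζ + k • Final.tateP q hq0 hq1 t = 0 ↔ n ∣ i ∧ n ∣ k := by
  rw [← tateP_zeta_pow_mul_t_pow hq0 hq1 ζ t i k]
  have h := FinalN.tateP_zpow_mul_zpow_eq_zero_iff hq0 hq1 hn hζ ht (i : ℤ) (k : ℤ)
  rw [zpow_natCast, zpow_natCast] at h
  rw [h, Int.natCast_dvd_natCast, Int.natCast_dvd_natCast]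

include hn hζ ht in
/-- **`E⁰[n] = ⟨P ζ⟩`** in the basis: `i • P ζ + k • P t` has a unit parameter iff `n ∣ k`. -/
theorem basis_unit_iff (i k : ℕ) :
    (∃ u : Kˣ, ‖(u : K)‖ = 1 ∧
      i • Final.tateP q hq0 hq1 ζ + k • Final.tateP q hq0 hq1 t = Final.tateP q hq0 hq1 u) ↔
      n ∣ k := by
  rw [← tateP_zeta_pow_mul_t_pow hq0 hq1 ζ t i k]
  constructor
  · intro h
    have := CyclicN.dvd_of_nsmul_unit hq0 hq1 hn hζ ht 1 i k (by simpa only [one_smul] using h)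
    rwa [one_mul] at this
  · rintro ⟨m, rfl⟩
    refine ⟨ζ ^ i, ?_, ?_⟩
    · rw [Units.val_pow_eq_pow_val, norm_pow, TatePlugN.norm_zeta hn hζ, one_pow]
    · rw [Final.tateP_mul hq0 hq1, pow_mul, ht, FinalN.tateP_pow hq0 hq1 (Units.mk0 q hq0),
        (Final.tateP_eq_zero_iff hq0 hq1 _).2 (Subgroup.mem_zpowers _), smul_zero, add_zero]

include hn hζ ht in
/-- `c • P t` has a unit parameter iff `n ∣ c`: the class of `P t` generates `E[n]/E⁰[n] ≅ ℤ/n`. -/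
theorem nsmul_t_unit_iff (c : ℕ) :
    (∃ u : Kˣ, ‖(u : K)‖ = 1 ∧ c • Final.tateP q hq0 hq1 t = Final.tateP q hq0 hq1 u) ↔ n ∣ c := by
  have h := basis_unit_iff hq0 hq1 hn hζ ht 0 c
  rwa [zero_smul, zero_add] at h

end Fermat.Agent.GZ.Tate.T3.BasisN
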