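/-
GATE-Z (S15) / [MOD-beta] leaf (T3), CHORD-ONLY version (helper43).  Mathlib + `T3/Core` only.

The conclusions of `T3/Core` (`W[p] = {P (ζ^i t₀^k)}`, torsion / Vélu-sum dichotomy) from the
WEAKER input that the addition theorem T2 is known for GENERIC chords only (helper93 5849 §2):

* `Gen : G → G → Prop`                                  (in the application: `u, v` admissible and `X u ≠ X v`),
* `hchord : ∀ u v, Gen u v → P (u * v) = P u + P v`     (generic chord),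
* `hinv   : ∀ u, P u⁻¹ = - P u`                         (`u ↦ 1/u`),
* `hper   : ∀ u, P (q * u) = P u`                       (`u ↦ q u`),
* `hker   : ∀ u, P u = 0 ↔ u ∈ Subgroup.zpowers q`,

and the three genericity facts for a prime `p ≥ 7`, `ζ` of order `p`, `t₀ ^ p = q`:

* `(G1)` `Gen (ζ^m) (ζ^n)`,   `(G2)` `Gen (t₀^m) (t₀^n)`   for `0 < m, n < p`, `m ≠ n`, `m + n ≠ p`;
* `(G3)` `Gen (ζ^m) (t₀^n)`   for `0 < m, n < p`.

Duplication is NOT an input: `P (w^2) = 2 • P w` is forced by the chords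
`(2,1) (3,1) (4,1) (3,2)` (this is where `p ≥ 7` is used).
-/
import Fermat.Agent.GZ.Tate.T3.Core

set_option autoImplicit false

namespace Fermat.Agent.GZ.Tate.T3.Chord

open Fermat.Agent.GZ.Tate.T3.Core

variable {G : Type*} [CommGroup G] {E : Type*} [AddCommGroup E]

section Cyclic

variable (P : G → E) (Gen : G → G → Prop)
variable (hchord : ∀ u v, Gen u v → P (u * v) = P u + P v)
variable (hinv : ∀ u, P u⁻¹ = -P u)
variable {q : G} (hper : ∀ u, P (q * u) = P u)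
variable (hone : P 1 = 0)

include hper in
omit [AddCommGroup E] in
/-- periodicity under every power of `q`. -/
theorem P_zpow_mul (n : ℤ) (u : G) : P (q ^ n * u) = P u := by
  induction n using Int.induction_on with
  | zero => rw [zpow_zero, one_mul]
  | succ i ih => rw [zpow_add_one, mul_comm (q ^ (i : ℤ)) q, mul_assoc, hper, ih]
  | pred i ih =>
    have h := hper (q ^ (-(i : ℤ) - 1) * u)
    rw [← mul_assoc, ← zpow_one_add, show (1 : ℤ) + (-(i : ℤ) - 1) = -(i : ℤ) by ring] at h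
    rw [← h, ih]

include hchord hinv hper hone in
/-- **Lemma A**: generic chords force `m ↦ P (w^m)` to be a homomorphism killed by `p`, for
`w ^ p ∈ q^ℤ` and `p ≥ 7` prime. -/
theorem P_pow_of_chord {p : ℕ} (hp7 : 7 ≤ p) {w : G} {e : ℤ} (hw : w ^ p = q ^ e)
    (hgen : ∀ m n : ℕ, 0 < m → m < p → 0 < n → n < p → m ≠ n → m + n ≠ p →
      Gen (w ^ m) (w ^ n)) :
    p • P w = 0 ∧ ∀ m : ℕ, P (w ^ m) = m • P w := by
  have chord : ∀ m n : ℕ, 0 < m → m < p → 0 < n → n < p → m ≠ n → m + n ≠ p →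
      P (w ^ (m + n)) = P (w ^ m) + P (w ^ n) := by
    intro m n h1 h2 h3 h4 h5 h6
    rw [pow_add]
    exact hchord _ _ (hgen m n h1 h2 h3 h4 h5 h6)
  have h1 : P (w ^ 1) = P w := by rw [pow_one]
  have h3 : P (w ^ 3) = P (w ^ 2) + P w := by
    rw [← h1]; exact chord 2 1 (by omega) (by omega) (by omega) (by omega) (by omega) (by omega)
  have h4 : P (w ^ 4) = P (w ^ 3) + P w := by
    rw [← h1]; exact chord 3 1 (by omega) (by omega) (by omega) (by omega) (by omega) (by omega)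
  have h5 : P (w ^ 5) = P (w ^ 4) + P w := by
    rw [← h1]; exact chord 4 1 (by omega) (by omega) (by omega) (by omega) (by omega) (by omega)
  have h5' : P (w ^ 5) = P (w ^ 3) + P (w ^ 2) :=
    chord 3 2 (by omega) (by omega) (by omega) (by omega) (by omega) (by omega)
  -- duplication
  have h2 : P (w ^ 2) = 2 • P w := by
    have e1 : P (w ^ 5) = P (w ^ 2) + 3 • P w := by rw [h5, h4, h3]; abel
    have e2 : P (w ^ 5) = 2 • P (w ^ 2) + P w := by rw [h5', h3]; abel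
    have e3 := e1.symm.trans e2
    have l : P (w ^ 2) + 3 • P w - (P (w ^ 2) + P w) = 2 • P w := by abel
    have r : 2 • P (w ^ 2) + P w - (P (w ^ 2) + P w) = P (w ^ 2) := by abel
    rw [← r, ← l, e3]
  -- induction up to `p - 1`
  have key : ∀ m : ℕ, m + 1 < p → P (w ^ (m + 1)) = (m + 1) • P w := by
    intro m
    induction m with
    | zero => intro _; rw [zero_add, pow_one, one_nsmul]
    | succ m ih =>
      intro hm
      rcases Nat.eq_zero_or_pos m with rfl | hm0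
      · exact h2
      · have := chord (m + 1) 1 (by omega) (by omega) (by omega) (by omega) (by omega) (by omega)
        rw [this, ih (by omega), h1, succ_nsmul (P w) (m + 1)]
  -- `P (w^(p-1)) = - P w`
  have hlast : P (w ^ (p - 1)) = -P w := by
    have : w ^ (p - 1) = q ^ e * w⁻¹ := by
      rw [← hw, ← pow_sub_one_mul (by omega : p ≠ 0) w, mul_assoc, mul_inv_cancel, mul_one]
    rw [this, P_zpow_mul P hper, hinv]
  have hpA : p • P w = 0 := by
    have h := key (p - 2) (by omega)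
    rw [show p - 2 + 1 = p - 1 by omega, hlast] at h
    have h' : p • P w = (p - 1) • P w + P w := by
      rw [← succ_nsmul, show p - 1 + 1 = p by omega]
    rw [h', ← h, neg_add_cancel]
  refine ⟨hpA, fun m => ?_⟩
  -- reduce `m` modulo `p`
  have hred : P (w ^ m) = P (w ^ (m % p)) := by
    conv_lhs => rw [← Nat.mod_add_div m p]
    rw [pow_add, pow_mul, hw, mul_comm, ← zpow_natCast, ← zpow_mul, P_zpow_mul P hper]
  rw [hred, nsmul_eq_mod_nsmul hpA m]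
  rcases Nat.eq_zero_or_pos (m % p) with h0 | hpos
  · rw [h0, pow_zero, zero_nsmul, hone]
  · have hlt : m % p < p := Nat.mod_lt _ (by omega)
    have := key (m % p - 1) (by omega)
    rwa [show m % p - 1 + 1 = m % p by omega] at this

end Cyclic

section Torsion

variable (P : G → E) (Gen : G → G → Prop)
variable (hchord : ∀ u v, Gen u v → P (u * v) = P u + P v)
variable (hinv : ∀ u, P u⁻¹ = -P u)
variable {q : G} (hper : ∀ u, P (q * u) = P u)
variable (hker : ∀ u, P u = 0 ↔ u ∈ Subgroup.zpowers q)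
variable (hq : ∀ n : ℤ, q ^ n = 1 → n = 0)
variable {p : ℕ} [hp : Fact p.Prime] (hp7 : 7 ≤ p) {ζ t₀ : G} (hζ : orderOf ζ = p)
  (ht₀ : t₀ ^ p = q)
variable (hG1 : ∀ m n : ℕ, 0 < m → m < p → 0 < n → n < p → m ≠ n → m + n ≠ p →
  Gen (ζ ^ m) (ζ ^ n))
variable (hG2 : ∀ m n : ℕ, 0 < m → m < p → 0 < n → n < p → m ≠ n → m + n ≠ p →
  Gen (t₀ ^ m) (t₀ ^ n))
variable (hG3 : ∀ m n : ℕ, 0 < m → m < p → 0 < n → n < p → Gen (ζ ^ m) (t₀ ^ n))

include hker in
omit hp in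
theorem P_one' : P 1 = 0 := (hker 1).mpr (Subgroup.one_mem _)

include hchord hinv hper hker hp7 hζ hG1 in
omit hp in
/-- `P` on `⟨ζ⟩`. -/
theorem P_zeta_pow : p • P ζ = 0 ∧ ∀ m : ℕ, P (ζ ^ m) = m • P ζ := by
  have hζp : ζ ^ p = q ^ (0 : ℤ) := by rw [zpow_zero, ← hζ]; exact pow_orderOf_eq_one ζ
  exact P_pow_of_chord P Gen hchord hinv hper (P_one' P hker) hp7 hζp hG1

include hchord hinv hper hker hp7 ht₀ hG2 in
omit hp in
/-- `P` on `⟨t₀⟩`. -/
theorem P_t₀_pow : p • P t₀ = 0 ∧ ∀ m : ℕ, P (t₀ ^ m) = m • P t₀ := by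
  have htp : t₀ ^ p = q ^ (1 : ℤ) := by rw [zpow_one, ht₀]
  exact P_pow_of_chord P Gen hchord hinv hper (P_one' P hker) hp7 htp hG2

include hchord hinv hper hker hp7 hζ ht₀ hG1 hG2 hG3 in
/-- **Lemma B**: `P (ζ^i t₀^k) = i • P ζ + k • P t₀` for ALL `i, k`. -/
theorem P_zeta_pow_mul_t₀_pow (i k : ℕ) : P (ζ ^ i * t₀ ^ k) = i • P ζ + k • P t₀ := by
  obtain ⟨hpA, hA⟩ := P_zeta_pow P Gen hchord hinv hper hker hp7 hζ hG1
  obtain ⟨hpB, hB⟩ := P_t₀_pow P Gen hchord hinv hper hker hp7 ht₀ hG2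
  have hζp : ζ ^ p = 1 := by rw [← hζ]; exact pow_orderOf_eq_one ζ
  have hp0 : 0 < p := hp.out.pos
  -- reduce modulo `p`
  have hζi : ζ ^ i = ζ ^ (i % p) := by
    conv_lhs => rw [← Nat.mod_add_div i p]
    rw [pow_add, pow_mul, hζp, one_pow, mul_one]
  have htk : t₀ ^ k = q ^ ((k / p : ℕ) : ℤ) * t₀ ^ (k % p) := by
    conv_lhs => rw [← Nat.mod_add_div k p]
    rw [pow_add, pow_mul, ht₀, zpow_natCast, mul_comm]
  have hred : P (ζ ^ i * t₀ ^ k) = P (ζ ^ (i % p) * t₀ ^ (k % p)) := by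
    rw [hζi, htk, mul_left_comm, P_zpow_mul P hper]
  rw [hred, nsmul_eq_mod_nsmul hpA i, nsmul_eq_mod_nsmul hpB k]
  have hi : i % p < p := Nat.mod_lt _ hp0
  have hk : k % p < p := Nat.mod_lt _ hp0
  rcases Nat.eq_zero_or_pos (i % p) with hi0 | hipos
  · rw [hi0, pow_zero, one_mul, zero_nsmul, zero_add, hB]
  rcases Nat.eq_zero_or_pos (k % p) with hk0 | hkpos
  · rw [hk0, pow_zero, mul_one, zero_nsmul, add_zero, hA]
  rw [hchord _ _ (hG3 _ _ hipos hi hkpos hk), hA, hB]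

include hchord hinv hper hker hq hp7 hζ ht₀ hG1 hG2 hG3 in
/-- **Lemma C**: `P ζ`, `P t₀` are independent modulo `p`. -/
theorem dvd_of_nsmul_add_nsmul_eq_zero {i k : ℕ} (h : i • P ζ + k • P t₀ = 0) :
    p ∣ i ∧ p ∣ k := by
  rw [← P_zeta_pow_mul_t₀_pow P Gen hchord hinv hper hker hp7 hζ ht₀ hG1 hG2 hG3, hker] at h
  obtain ⟨n, hn⟩ := Subgroup.mem_zpowers_iff.mp h
  have hζfin : IsOfFinOrder ζ := by
    rw [← orderOf_pos_iff, hζ]; exact hp.out.pos
  have hq' : q ^ n = t₀ ^ ((p : ℤ) * n) := by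
    rw [← ht₀, ← zpow_natCast, ← zpow_mul]
  -- `t₀ ^ (k - p n) = ζ ^ (-i)`
  have hrel : t₀ ^ ((k : ℤ) - p * n) = ζ ^ (-(i : ℤ)) := by
    rw [zpow_sub, ← hq', hn, zpow_natCast, zpow_neg, zpow_natCast, mul_inv_rev,
      mul_inv_cancel_left]
  have hfin : IsOfFinOrder (t₀ ^ ((k : ℤ) - p * n)) := by
    rw [hrel]; exact hζfin.zpow
  have hzero := t₀_zpow_eq_zero_of_isOfFinOrder hq ht₀ hfin
  have hk : p ∣ k := by
    have : (p : ℤ) ∣ (k : ℤ) := ⟨n, by linarith⟩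
    exact_mod_cast this
  refine ⟨?_, hk⟩
  rw [hzero, zpow_zero, zpow_neg, eq_comm, inv_eq_one, zpow_natCast] at hrel
  rw [← hζ]
  exact orderOf_dvd_of_pow_eq_one hrel

include hchord hinv hper hker hq hp7 hζ ht₀ hG1 hG2 hG3 in
/-- the `p²` points `P (ζ^i t₀^k)` are pairwise distinct. -/
theorem pt_injective' : Function.Injective (pt (p := p) P ζ t₀) := by
  obtain ⟨hpA, -⟩ := P_zeta_pow P Gen hchord hinv hper hker hp7 hζ hG1
  obtain ⟨hpB, -⟩ := P_t₀_pow P Gen hchord hinv hper hker hp7 ht₀ hG2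
  rintro ⟨i, k⟩ ⟨i', k'⟩ h
  rw [pt, pt, P_zeta_pow_mul_t₀_pow P Gen hchord hinv hper hker hp7 hζ ht₀ hG1 hG2 hG3,
    P_zeta_pow_mul_t₀_pow P Gen hchord hinv hper hker hp7 hζ ht₀ hG1 hG2 hG3] at h
  simp only at h
  have hi := i.2
  have hi' := i'.2
  have hk := k.2
  have hk' := k'.2
  -- `(i + (p - i')) • A + (k + (p - k')) • B = 0`
  have h0 : ((i : ℕ) + (p - (i' : ℕ))) • P ζ + ((k : ℕ) + (p - (k' : ℕ))) • P t₀ = 0 := by
    have e1 : ((i' : ℕ) + (p - (i' : ℕ))) • P ζ = 0 := by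
      rw [show (i' : ℕ) + (p - (i' : ℕ)) = p by omega, hpA]
    have e2 : ((k' : ℕ) + (p - (k' : ℕ))) • P t₀ = 0 := by
      rw [show (k' : ℕ) + (p - (k' : ℕ)) = p by omega, hpB]
    rw [add_nsmul] at e1 e2
    rw [add_nsmul, add_nsmul]
    calc (i : ℕ) • P ζ + (p - (i' : ℕ)) • P ζ + ((k : ℕ) • P t₀ + (p - (k' : ℕ)) • P t₀)
        = ((i : ℕ) • P ζ + (k : ℕ) • P t₀) + (p - (i' : ℕ)) • P ζ + (p - (k' : ℕ)) • P t₀ := by
          abel
      _ = ((i' : ℕ) • P ζ + (k' : ℕ) • P t₀) + (p - (i' : ℕ)) • P ζ + (p - (k' : ℕ)) • P t₀ := by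
          rw [h]
      _ = ((i' : ℕ) • P ζ + (p - (i' : ℕ)) • P ζ) + ((k' : ℕ) • P t₀ + (p - (k' : ℕ)) • P t₀) := by
          abel
      _ = 0 := by rw [e1, e2, add_zero]
  obtain ⟨d1, d2⟩ := dvd_of_nsmul_add_nsmul_eq_zero P Gen hchord hinv hper hker hq hp7 hζ ht₀
    hG1 hG2 hG3 h0
  have hii : (i : ℕ) = (i' : ℕ) := by
    obtain ⟨c, hc⟩ := d1
    have : c = 1 := by
      rcases c with _ | _ | c
      · omega
      · rfl
      · have : p * (c + 1 + 1) ≥ 2 * p := by nlinarith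
        omega
    subst this
    omega
  have hkk : (k : ℕ) = (k' : ℕ) := by
    obtain ⟨c, hc⟩ := d2
    have : c = 1 := by
      rcases c with _ | _ | c
      · omega
      · rfl
      · have : p * (c + 1 + 1) ≥ 2 * p := by nlinarith
        omega
    subst this
    omega
  exact Prod.ext (Fin.ext hii) (Fin.ext hkk)

include hchord hinv hper hker hq hp7 hζ ht₀ hG1 hG2 hG3 in
/-- **Counting**: if `E[p]` has at most `p²` elements, every `p`-torsion point is `P (ζ^i t₀^k)`. -/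
theorem exists_eq_pt' [Finite {x : E // p • x = 0}]
    (hcard : Nat.card {x : E // p • x = 0} ≤ p ^ 2) {x : E} (hx : p • x = 0) :
    ∃ ik : Fin p × Fin p, pt P ζ t₀ ik = x := by
  classical
  obtain ⟨hpA, -⟩ := P_zeta_pow P Gen hchord hinv hper hker hp7 hζ hG1
  obtain ⟨hpB, -⟩ := P_t₀_pow P Gen hchord hinv hper hker hp7 ht₀ hG2
  have hpt : ∀ ik : Fin p × Fin p, p • pt P ζ t₀ ik = 0 := by
    intro ik
    rw [pt, P_zeta_pow_mul_t₀_pow P Gen hchord hinv hper hker hp7 hζ ht₀ hG1 hG2 hG3, nsmul_add,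
      nsmul_left_comm, hpA, nsmul_zero, nsmul_left_comm, hpB, nsmul_zero, add_zero]
  let f : Fin p × Fin p → {x : E // p • x = 0} := fun ik => ⟨pt P ζ t₀ ik, hpt ik⟩
  have hf : Function.Injective f := fun a b h =>
    pt_injective' P Gen hchord hinv hper hker hq hp7 hζ ht₀ hG1 hG2 hG3 (congrArg Subtype.val h)
  have hcard' : Nat.card {x : E // p • x = 0} ≤ Nat.card (Fin p × Fin p) := by
    rw [Nat.card_prod, Nat.card_fin, ← sq]; exact hcard
  have hbij : Function.Bijective f :=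
    (Nat.bijective_iff_injective_and_card f).mpr
      ⟨hf, le_antisymm (Nat.card_le_card_of_injective f hf) hcard'⟩
  obtain ⟨ik, hik⟩ := hbij.2 ⟨x, hx⟩
  exact ⟨ik, congrArg Subtype.val hik⟩

include hchord hinv hper hker hq hp7 hζ ht₀ hG1 hG2 hG3 in
/-- **Dichotomy for sums over `⟨Q⟩ ∖ 0`**, chord-only input: same conclusion as
`Core.sum_dichotomy`. -/
theorem sum_dichotomy' {M : Type*} [AddCommMonoid M] [Finite {x : E // p • x = 0}]
    (hcard : Nat.card {x : E // p • x = 0} ≤ p ^ 2) {Q : E} (hQ0 : Q ≠ 0) (hQ : p • Q = 0) :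
    ((∃ j : ℕ, ¬ p ∣ j ∧ Q = P (ζ ^ j)) ∧ ∀ f : E → M,
        ∑ k ∈ Finset.Ico 1 p, f (k • Q) = ∑ k ∈ Finset.Ico 1 p, f (P (ζ ^ k))) ∨
      ∃ i k : ℕ, 0 < k ∧ k < p ∧ Q = P (ζ ^ i * t₀ ^ k) ∧
        ∃ t : G, t ^ p = q ∧ (∃ m : ℕ, ¬ p ∣ m ∧ m • Q = P t) ∧ ∀ f : E → M,
          ∑ k ∈ Finset.Ico 1 p, f (k • Q) = ∑ k ∈ Finset.Ico 1 p, f (P (t ^ k)) := by
  obtain ⟨hpA, hA⟩ := P_zeta_pow P Gen hchord hinv hper hker hp7 hζ hG1
  obtain ⟨hpB, hB⟩ := P_t₀_pow P Gen hchord hinv hper hker hp7 ht₀ hG2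
  have hAB := P_zeta_pow_mul_t₀_pow P Gen hchord hinv hper hker hp7 hζ ht₀ hG1 hG2 hG3
  have hζp : ζ ^ p = 1 := by rw [← hζ]; exact pow_orderOf_eq_one ζ
  obtain ⟨⟨i, k⟩, hik⟩ := exists_eq_pt' P Gen hchord hinv hper hker hq hp7 hζ ht₀ hG1 hG2 hG3
    hcard hQ
  rw [pt] at hik
  simp only at hik
  by_cases hk : (k : ℕ) = 0
  · left
    have hQi : Q = P (ζ ^ (i : ℕ)) := by rw [← hik, hk, pow_zero, mul_one]
    have hi : ¬ p ∣ (i : ℕ) := by
      intro hdvd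
      apply hQ0
      obtain ⟨c, hc⟩ := hdvd
      rw [hQi, hc, pow_mul, hζp, one_pow, P_one' P hker]
    refine ⟨⟨i, hi, hQi⟩, fun f => ?_⟩
    rw [hQi, hA, sum_Ico_nsmul_nsmul f hpA hi]
    exact Finset.sum_congr rfl fun k _ => by rw [hA]
  · right
    refine ⟨i, k, Nat.pos_of_ne_zero hk, k.2, hik.symm, ?_⟩
    have hcop : Nat.Coprime (k : ℕ) p := by
      rw [Nat.coprime_comm, Nat.Prime.coprime_iff_not_dvd hp.out]
      intro hdvd
      exact hk (Nat.eq_zero_of_dvd_of_lt hdvd k.2)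
    obtain ⟨m, -, hm⟩ := Nat.exists_mul_mod_eq_one_of_coprime hcop hp.out.one_lt
    have hmp : ¬ p ∣ m := by
      intro hdvd
      obtain ⟨d, hd⟩ := hdvd
      rw [hd, ← mul_assoc, mul_comm (k : ℕ) p, mul_assoc, Nat.mul_mod_right] at hm
      exact zero_ne_one hm
    -- `t := ζ^(i m) t₀`
    have htp : (ζ ^ ((i : ℕ) * m) * t₀) ^ p = q := by
      rw [mul_pow, ← pow_mul, mul_comm ((i : ℕ) * m), pow_mul, hζp, one_pow, one_mul, ht₀]
    have hQAB : Q = (i : ℕ) • P ζ + (k : ℕ) • P t₀ := by rw [← hik, hAB]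
    have hmQ : m • Q = P (ζ ^ ((i : ℕ) * m) * t₀) := by
      have h1 := hAB ((i : ℕ) * m) 1
      rw [pow_one, one_nsmul] at h1
      rw [h1, hQAB, nsmul_add, ← mul_nsmul', ← mul_nsmul', mul_comm m (i : ℕ), mul_comm m (k : ℕ),
        nsmul_eq_mod_nsmul hpB ((k : ℕ) * m), hm, one_nsmul]
    refine ⟨ζ ^ ((i : ℕ) * m) * t₀, htp, ⟨m, hmp, hmQ⟩, fun f => ?_⟩
    rw [← sum_Ico_nsmul_nsmul f hQ hmp, hmQ]
    refine Finset.sum_congr rfl fun k' _ => ?_
    have h1 := hAB ((i : ℕ) * m) 1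
    rw [pow_one, one_nsmul] at h1
    rw [h1, mul_pow, ← pow_mul, hAB, nsmul_add, ← mul_nsmul', mul_comm k' ((i : ℕ) * m)]

include hchord hinv hper hker hq hp7 hζ ht₀ hG1 hG2 hG3 in
/-- **Dichotomy**, chord-only input: same conclusion as `Core.torsion_dichotomy_full`. -/
theorem torsion_dichotomy' [Finite {x : E // p • x = 0}]
    (hcard : Nat.card {x : E // p • x = 0} ≤ p ^ 2) {Q : E} (hQ0 : Q ≠ 0) (hQ : p • Q = 0) :
    (∃ j : ℕ, ¬ p ∣ j ∧ Q = P (ζ ^ j)) ∨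
      ∃ i k : ℕ, 0 < k ∧ k < p ∧ Q = P (ζ ^ i * t₀ ^ k) ∧
        ∃ t : G, t ^ p = q ∧ ∃ m : ℕ, ¬ p ∣ m ∧ m • Q = P t := by
  rcases sum_dichotomy' (M := ℕ) P Gen hchord hinv hper hker hq hp7 hζ ht₀ hG1 hG2 hG3 hcard hQ0
    hQ with ⟨h, -⟩ | ⟨i, k, h1, h2, h3, t, h4, h5, -⟩
  · exact Or.inl h
  · exact Or.inr ⟨i, k, h1, h2, h3, t, h4, h5⟩

end Torsion

end Fermat.Agent.GZ.Tate.T3.Chord
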