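/-
GATE-F (S44) / GF-ETATE (M3)(M4) Tate-side core (helper43); also serves CELL-M3 (S12).

`K` complete ultrametric, `0 < ‖q‖ < 1`, `n ≠ 0`, `ζ` a primitive `n`-th root of unity, `t ^ n = q`,
`P = T2.Final.tateP q hq0 hq1`; `s : Kˣ →* Kˣ` ANY group homomorphism (in the application
`Units.map σ̂`, `σ̂` the continuous extension of a decomposition-group element, for which
`P (s u)` is "`σ (P u)`", `T2/Equivar.tateP_map_fix_some`).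

* `param_map`       : `s ζ = ζ^a`, `s t = ζ^c t` ⟹ `s (ζ^i t^k) = ζ^(a i + c k) t^k`;
* `tateP_add_nsmul` : `P (ζ^i t^k) + κ • P (ζ^i0) = P (ζ^(i + κ i0) t^k)`;
* `k0_dvd`          : `P (s w) = a • P w` for `w = ζ^i0 t^k0` ⟹ `n ∣ (a - 1) k0`  (M3);
* `k0_eq_zero`      : `n = p` prime, `p ∤ a - 1`, `k0 < p` ⟹ `k0 = 0`;
* `cocycle_dvd`     : `s ζ = ζ`, `s t = ζ^c t`, `P (s u) = P u + κ • P (ζ^i0)` for `u = ζ^i t^k`
                      ⟹ `n ∣ c k - κ i0`  (M4);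
* `exists_exponent` : `p` prime, `p ∤ i0` ⟹ `∃ j0, ∀ c κ, p ∣ c k - κ i0 → p ∣ c (k j0) - κ`.
-/
import Fermat.Agent.GZ.Tate.T3.BasisN

set_option autoImplicit false

noncomputable section

namespace Fermat.Agent.GZ.Tate.T3.KummerN

open WeierstrassCurve Fermat.Agent.GZ.Tate Fermat.Agent.GZ.Tate.T2

universe v

variable {K : Type v} [NormedField K] [IsUltrametricDist K] [CompleteSpace K] [DecidableEq K]
variable {q : K} (hq0 : q ≠ 0) (hq1 : ‖q‖ < 1)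
variable {n : ℕ} (hn : n ≠ 0) {ζ t : Kˣ} (hζ : IsPrimitiveRoot (ζ : K) n)
  (ht : t ^ n = Units.mk0 q hq0)

omit [IsUltrametricDist K] [CompleteSpace K] [DecidableEq K] in
/-- the action of a group homomorphism on the parameters. -/
theorem param_map (s : Kˣ →* Kˣ) {a c : ℕ} (hsζ : s ζ = ζ ^ a) (hst : s t = ζ ^ c * t)
    (i k : ℕ) : s (ζ ^ i * t ^ k) = ζ ^ (a * i + c * k) * t ^ k := by
  rw [map_mul, map_pow, map_pow, hsζ, hst, mul_pow, ← pow_mul, ← pow_mul, pow_add, mul_assoc]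

/-- `P (ζ^i t^k) + κ • P (ζ^i0) = P (ζ^(i + κ i0) t^k)`. -/
theorem tateP_add_nsmul (i k κ i0 : ℕ) :
    Final.tateP q hq0 hq1 (ζ ^ i * t ^ k) + κ • Final.tateP q hq0 hq1 (ζ ^ i0) =
      Final.tateP q hq0 hq1 (ζ ^ (i + κ * i0) * t ^ k) := by
  rw [← FinalN.tateP_pow hq0 hq1, ← Final.tateP_mul hq0 hq1]
  congr 1
  rw [← pow_mul, pow_add, mul_comm κ i0]
  ac_rfl

include hn hζ ht in
/-- natural-exponent form of the lattice lemma. -/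
theorem tateP_eq_tateP_iff_nat (a b a' b' : ℕ) :
    Final.tateP q hq0 hq1 (ζ ^ a * t ^ b) = Final.tateP q hq0 hq1 (ζ ^ a' * t ^ b') ↔
      (n : ℤ) ∣ (a : ℤ) - a' ∧ (n : ℤ) ∣ (b : ℤ) - b' := by
  have h := FinalN.tateP_eq_tateP_iff hq0 hq1 hn hζ ht (a : ℤ) (b : ℤ) (a' : ℤ) (b' : ℤ)
  simpa only [zpow_natCast] using h

include hn hζ ht in
/-- **(M3)**: if `s` multiplies `P w` by `a` (`w = ζ^i0 t^k0`) then `n ∣ (a - 1) k0`. -/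
theorem k0_dvd (s : Kˣ →* Kˣ) {a c : ℕ} (hsζ : s ζ = ζ ^ a) (hst : s t = ζ ^ c * t)
    (i0 k0 : ℕ)
    (h : Final.tateP q hq0 hq1 (s (ζ ^ i0 * t ^ k0)) =
      a • Final.tateP q hq0 hq1 (ζ ^ i0 * t ^ k0)) :
    (n : ℤ) ∣ ((a : ℤ) - 1) * k0 := by
  rw [param_map s hsζ hst, ← FinalN.tateP_pow hq0 hq1, mul_pow, ← pow_mul, ← pow_mul] at h
  obtain ⟨-, h2⟩ := (tateP_eq_tateP_iff_nat hq0 hq1 hn hζ ht _ _ _ _).1 h
  have : ((a : ℤ) - 1) * k0 = -((k0 : ℤ) - ((k0 * a : ℕ) : ℤ)) := by push_cast; ring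
  rw [this]
  exact (dvd_neg).2 h2

omit [IsUltrametricDist K] [CompleteSpace K] [DecidableEq K] in
/-- `p` prime, `p ∣ (a - 1) k0`, `p ∤ a - 1`, `k0 < p` ⟹ `k0 = 0`. -/
theorem k0_eq_zero {p : ℕ} (hp : p.Prime) {a k0 : ℕ} (h : (p : ℤ) ∣ ((a : ℤ) - 1) * k0)
    (ha : ¬ (p : ℤ) ∣ (a : ℤ) - 1) (hk : k0 < p) : k0 = 0 := by
  have hp' : Prime (p : ℤ) := Nat.prime_iff_prime_int.mp hp
  rcases hp'.dvd_or_dvd h with h1 | h1
  · exact absurd h1 ha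
  · have := Int.natCast_dvd_natCast.1 h1
    exact Nat.eq_zero_of_dvd_of_lt this hk

include hn hζ ht in
/-- **(M4)**: the Kummer cocycle of `t` against the cocycle `κ` of the point. -/
theorem cocycle_dvd (s : Kˣ →* Kˣ) {c : ℕ} (hsζ : s ζ = ζ) (hst : s t = ζ ^ c * t)
    (i k κ i0 : ℕ)
    (h : Final.tateP q hq0 hq1 (s (ζ ^ i * t ^ k)) =
      Final.tateP q hq0 hq1 (ζ ^ i * t ^ k) + κ • Final.tateP q hq0 hq1 (ζ ^ i0)) :
    (n : ℤ) ∣ (c : ℤ) * k - (κ : ℤ) * i0 := by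
  have hsζ' : s ζ = ζ ^ 1 := by rw [pow_one]; exact hsζ
  rw [param_map s hsζ' hst, tateP_add_nsmul hq0 hq1] at h
  obtain ⟨h1, -⟩ := (tateP_eq_tateP_iff_nat hq0 hq1 hn hζ ht _ _ _ _).1 h
  have : (c : ℤ) * k - (κ : ℤ) * i0 = ((1 * i + c * k : ℕ) : ℤ) - ((i + κ * i0 : ℕ) : ℤ) := by
    push_cast; ring
  rw [this]
  exact h1

omit [IsUltrametricDist K] [CompleteSpace K] [DecidableEq K] in
/-- **the exponent of `α`**: `p ∤ i0` ⟹ with `i0 j0 ≡ 1 (p)`, `c k ≡ κ i0 ⟹ c (k j0) ≡ κ`. -/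
theorem exists_exponent {p : ℕ} (hp : p.Prime) {i0 : ℕ} (hi0 : ¬ p ∣ i0) (k : ℕ) :
    ∃ j0 : ℕ, ∀ c κ : ℕ, (p : ℤ) ∣ (c : ℤ) * k - (κ : ℤ) * i0 →
      (p : ℤ) ∣ (c : ℤ) * ((k * j0 : ℕ) : ℤ) - κ := by
  have hcop : Nat.Coprime i0 p := by
    rw [Nat.coprime_comm, Nat.Prime.coprime_iff_not_dvd hp]; exact hi0
  obtain ⟨j0, -, hj0⟩ := Nat.exists_mul_mod_eq_one_of_coprime hcop hp.one_lt
  refine ⟨j0, fun c κ h => ?_⟩
  -- `i0 * j0 = 1 + p * e`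
  obtain ⟨e, he⟩ : ∃ e, i0 * j0 = 1 + p * e :=
    ⟨i0 * j0 / p, by have := Nat.div_add_mod (i0 * j0) p; omega⟩
  obtain ⟨m, hm⟩ := h
  refine ⟨m * j0 + κ * e, ?_⟩
  have he' : (i0 : ℤ) * j0 = 1 + p * e := by exact_mod_cast he
  push_cast
  linear_combination (j0 : ℤ) * hm + (κ : ℤ) * he'

end Fermat.Agent.GZ.Tate.T3.KummerN
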