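/-
GATE-Z (S15) / [MOD-beta] leaf (T3), plug of the CHORD-ONLY version (helper43): `T3/Chord` +
`T3/Count` on a Weierstrass curve `W` over a field `K` of characteristic zero.

Input (hypothesis form; `Gen` is whatever genericity relation T2 exports, e.g.
`Gen u v := IsAdm q u ∧ IsAdm q v ∧ X q u ≠ X q v`):

* `hchord : ∀ u v, Gen u v → P (u * v) = P u + P v`   (T2, GENERIC chords only),
* `hinv   : ∀ u, P u⁻¹ = - P u`,  `hper : ∀ u, P (q * u) = P u`   (T1 functional equations),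
* `hker   : ∀ u, P u = 0 ↔ u ∈ Subgroup.zpowers q`,
* `(G1) (G2) (G3)` : genericity inside `⟨ζ⟩`, inside `⟨t₀⟩`, and across (first-order estimates).

Output: the SAME statements as `T3/Plug` (`torsion_eq_pt`, `torsion_dichotomy`, `sum_dichotomy`).
-/
import Fermat.Agent.GZ.Tate.T3.Chord
import Fermat.Agent.GZ.Tate.T3.Count

set_option autoImplicit false

namespace Fermat.Agent.GZ.Tate.T3.PlugChord

open WeierstrassCurve

universe u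

variable {K : Type u} [Field K] [CharZero K] [DecidableEq K] {W : WeierstrassCurve K}
variable (hΔ : W.Δ ≠ 0)
variable (P : Kˣ → W.toAffine.Point) (Gen : Kˣ → Kˣ → Prop)
variable (hchord : ∀ u v, Gen u v → P (u * v) = P u + P v)
variable (hinv : ∀ u, P u⁻¹ = -P u)
variable {q : Kˣ} (hper : ∀ u, P (q * u) = P u)
variable (hker : ∀ u, P u = 0 ↔ u ∈ Subgroup.zpowers q)
variable (hq : ∀ n : ℤ, q ^ n = 1 → n = 0)
variable {p : ℕ} [hp : Fact p.Prime] (hp7 : 7 ≤ p) {ζ t₀ : Kˣ} (hζ : orderOf ζ = p)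
  (ht₀ : t₀ ^ p = q)
variable (hG1 : ∀ m n : ℕ, 0 < m → m < p → 0 < n → n < p → m ≠ n → m + n ≠ p →
  Gen (ζ ^ m) (ζ ^ n))
variable (hG2 : ∀ m n : ℕ, 0 < m → m < p → 0 < n → n < p → m ≠ n → m + n ≠ p →
  Gen (t₀ ^ m) (t₀ ^ n))
variable (hG3 : ∀ m n : ℕ, 0 < m → m < p → 0 < n → n < p → Gen (ζ ^ m) (t₀ ^ n))

include hchord hinv hper hker hp7 hζ ht₀ hG1 hG2 hG3 in
omit [CharZero K] in
/-- `P` is additive on the subgroup generated by `ζ` and `t₀`. -/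
theorem P_zeta_pow_mul_t₀_pow (i k : ℕ) : P (ζ ^ i * t₀ ^ k) = i • P ζ + k • P t₀ :=
  Chord.P_zeta_pow_mul_t₀_pow P Gen hchord hinv hper hker hp7 hζ ht₀ hG1 hG2 hG3 i k

include hΔ hchord hinv hper hker hq hp7 hζ ht₀ hG1 hG2 hG3 in
/-- **(T3b)**, chord-only input: `W[p](K) = {P (ζ^i t₀^k) : i, k < p}`. -/
theorem torsion_eq_pt {Q : W.toAffine.Point} (hQ : p • Q = 0) :
    ∃ i k : ℕ, i < p ∧ k < p ∧ Q = P (ζ ^ i * t₀ ^ k) := by
  have := Count.finite_torsion' W hΔ p hp.out.one_le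
  obtain ⟨⟨i, k⟩, hik⟩ := Chord.exists_eq_pt' P Gen hchord hinv hper hker hq hp7 hζ ht₀
    hG1 hG2 hG3 (Count.card_torsion_le W hΔ p hp.out.one_le) hQ
  exact ⟨i, k, i.2, k.2, hik.symm⟩

include hΔ hchord hinv hper hker hq hp7 hζ ht₀ hG1 hG2 hG3 in
/-- **(T3c)**, chord-only input. -/
theorem torsion_dichotomy {Q : W.toAffine.Point} (hQ0 : Q ≠ 0) (hQ : p • Q = 0) :
    (∃ j : ℕ, ¬ p ∣ j ∧ Q = P (ζ ^ j)) ∨
      ∃ i k : ℕ, 0 < k ∧ k < p ∧ Q = P (ζ ^ i * t₀ ^ k) ∧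
        ∃ t : Kˣ, t ^ p = q ∧ ∃ m : ℕ, ¬ p ∣ m ∧ m • Q = P t := by
  have := Count.finite_torsion' W hΔ p hp.out.one_le
  exact Chord.torsion_dichotomy' P Gen hchord hinv hper hker hq hp7 hζ ht₀ hG1 hG2 hG3
    (Count.card_torsion_le W hΔ p hp.out.one_le) hQ0 hQ

include hΔ hchord hinv hper hker hq hp7 hζ ht₀ hG1 hG2 hG3 in
/-- **(T3d)**, chord-only input: the Vélu sums over `⟨Q⟩ ∖ 0`. -/
theorem sum_dichotomy {M : Type*} [AddCommMonoid M] {Q : W.toAffine.Point} (hQ0 : Q ≠ 0)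
    (hQ : p • Q = 0) :
    ((∃ j : ℕ, ¬ p ∣ j ∧ Q = P (ζ ^ j)) ∧ ∀ f : W.toAffine.Point → M,
        ∑ k ∈ Finset.Ico 1 p, f (k • Q) = ∑ k ∈ Finset.Ico 1 p, f (P (ζ ^ k))) ∨
      ∃ i k : ℕ, 0 < k ∧ k < p ∧ Q = P (ζ ^ i * t₀ ^ k) ∧
        ∃ t : Kˣ, t ^ p = q ∧ (∃ m : ℕ, ¬ p ∣ m ∧ m • Q = P t) ∧
          ∀ f : W.toAffine.Point → M,
            ∑ k ∈ Finset.Ico 1 p, f (k • Q) = ∑ k ∈ Finset.Ico 1 p, f (P (t ^ k)) := by
  have := Count.finite_torsion' W hΔ p hp.out.one_le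
  exact Chord.sum_dichotomy' P Gen hchord hinv hper hker hq hp7 hζ ht₀ hG1 hG2 hG3
    (Count.card_torsion_le W hΔ p hp.out.one_le) hQ0 hQ

end Fermat.Agent.GZ.Tate.T3.PlugChord
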